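import Mathlib.RingTheory.Ideal.Norm.RelNorm
import Mathlib.NumberTheory.RamificationInertia.Galois
import Mathlib.RingTheory.Frobenius
import Fermat.Agent.S14.Analytic.Euler
import Fermat.Agent.S14.DegreeOne

/-!
# Frobenius-weighted prime sums at a Galois level

For `H ≤ Gal(F/ℚ)` with fixed field `M`, the weighted sum over the primes of `F` with Frobenius
in `H` is `#H` times the prime sum of `M`, up to `O(1)`.
-/

set_option autoImplicit false
set_option linter.unusedSectionVars false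

noncomputable section

namespace Fermat.Agent.S14.Cross

open NumberField IsDedekindDomain
open scoped Pointwise

variable {F : Type} [Field F] [NumberField F]

instance finite_quotient_asIdeal (Q : HeightOneSpectrum (𝓞 F)) : Finite (𝓞 F ⧸ Q.asIdeal) :=
  Ring.HasFiniteQuotients.finiteQuotient Q.ne_bot

/-- The residue characteristic. -/
def residueChar (Q : HeightOneSpectrum (𝓞 F)) : ℕ := Ideal.absNorm (Q.asIdeal.under ℤ)

lemma residueChar_prime (Q : HeightOneSpectrum (𝓞 F)) : (residueChar Q).Prime :=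
  haveI : NeZero Q.asIdeal := ⟨Q.ne_bot⟩
  Nat.absNorm_under_prime Q.asIdeal

lemma residueChar_mem (Q : HeightOneSpectrum (𝓞 F)) : (residueChar Q : 𝓞 F) ∈ Q.asIdeal :=
  Int.absNorm_under_mem Q.asIdeal

lemma card_quotient_under_int (Q : HeightOneSpectrum (𝓞 F)) :
    Nat.card (ℤ ⧸ Q.asIdeal.under ℤ) = residueChar Q := by
  rw [residueChar, Ideal.absNorm_apply, Submodule.cardQuot_apply]

/-- Unramified over `ℤ`. -/
def IsGood (Q : HeightOneSpectrum (𝓞 F)) : Prop := Q.asIdeal.inertia Gal(F/ℚ) = ⊥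

variable [IsGalois ℚ F]

/-- The Frobenius element. -/
def frob (Q : HeightOneSpectrum (𝓞 F)) : Gal(F/ℚ) := arithFrobAt ℤ Gal(F/ℚ) Q.asIdeal

lemma isArithFrobAt_frob (Q : HeightOneSpectrum (𝓞 F)) :
    IsArithFrobAt ℤ (frob Q) Q.asIdeal :=
  IsArithFrobAt.arithFrobAt (R := ℤ) (G := Gal(F/ℚ)) Q.asIdeal

lemma eq_frob {Q : HeightOneSpectrum (𝓞 F)} (hQ : IsGood Q) {σ : Gal(F/ℚ)}
    (hσ : IsArithFrobAt ℤ σ Q.asIdeal) : σ = frob Q := by
  have h := hσ.mul_inv_mem_inertia (isArithFrobAt_frob Q)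
  rw [show Q.asIdeal.inertia Gal(F/ℚ) = ⊥ from hQ, Subgroup.mem_bot] at h
  exact mul_inv_eq_one.mp h

lemma finite_not_isGood : {Q : HeightOneSpectrum (𝓞 F) | ¬ IsGood Q}.Finite := by
  classical
  have hmoved : ∀ σ : {σ : Gal(F/ℚ) // σ ≠ 1}, ∃ x : 𝓞 F, σ.1 • x ≠ x := fun σ => by
    by_contra h
    push Not at h
    refine σ.2 (AlgEquiv.ext fun y => ?_)
    obtain ⟨a, b, -, rfl⟩ := IsFractionRing.div_surjective (A := 𝓞 F) y
    rw [map_div₀]
    exact congrArg₂ (· / ·) (congrArg (algebraMap (𝓞 F) F) (h a))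
      (congrArg (algebraMap (𝓞 F) F) (h b))
  choose x hx using hmoved
  refine (Set.finite_iUnion fun σ : {σ : Gal(F/ℚ) // σ ≠ 1} =>
    Ideal.finite_factors (I := Ideal.span {σ.1 • x σ - x σ})
      (by simpa [sub_eq_zero] using hx σ)).subset fun Q hQ => ?_
  obtain ⟨σ, hσ, hσ1⟩ : ∃ σ ∈ Q.asIdeal.inertia Gal(F/ℚ), σ ≠ 1 := by
    by_contra h
    push Not at h
    exact hQ ((Subgroup.eq_bot_iff_forall _).mpr h)
  exact Set.mem_iUnion.mpr ⟨⟨σ, hσ1⟩,
    Ideal.dvd_span_singleton.mpr (hσ (x ⟨σ, hσ1⟩))⟩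

/-- The image of a prime. -/
def conjPrime (g : Gal(F/ℚ)) (Q : HeightOneSpectrum (𝓞 F)) : HeightOneSpectrum (𝓞 F) :=
  ⟨g • Q.asIdeal, Ideal.IsPrime.smul g, fun h => Q.ne_bot (by
    rw [← inv_smul_smul g Q.asIdeal, h, Ideal.smul_bot])⟩

lemma isGood_conjPrime (g : Gal(F/ℚ)) {Q : HeightOneSpectrum (𝓞 F)} (hQ : IsGood Q) :
    IsGood (conjPrime g Q) := by
  refine (Subgroup.eq_bot_iff_forall _).mpr fun σ hσ => ?_
  have h : g⁻¹ * σ * g ∈ Q.asIdeal.inertia Gal(F/ℚ) := fun y => by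
    have h' : σ • g • y - g • y ∈ g • Q.asIdeal := hσ (g • y)
    have := Ideal.smul_mem_pointwise_smul g⁻¹ _ _ h'
    rwa [inv_smul_smul, smul_sub, inv_smul_smul, smul_smul, smul_smul] at this
  rw [show Q.asIdeal.inertia Gal(F/ℚ) = ⊥ from hQ, Subgroup.mem_bot] at h
  calc σ = g * (g⁻¹ * σ * g) * g⁻¹ := by group
    _ = 1 := by rw [h]; group

lemma frob_conjPrime (g : Gal(F/ℚ)) {Q : HeightOneSpectrum (𝓞 F)} (hQ : IsGood Q) :
    IsGood (conjPrime g Q) ∧ frob (conjPrime g Q) = g * frob Q * g⁻¹ :=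
  ⟨isGood_conjPrime g hQ,
    (eq_frob (isGood_conjPrime g hQ) ((isArithFrobAt_frob Q).conj g)).symm⟩

/-- The decomposition group of a good prime is generated by the Frobenius. -/
lemma zpowers_frob {Q : HeightOneSpectrum (𝓞 F)} (hQ : IsGood Q) :
    Subgroup.zpowers (frob Q) = MulAction.stabilizer Gal(F/ℚ) Q.asIdeal := by
  classical
  have hmem : frob Q ∈ MulAction.stabilizer Gal(F/ℚ) Q.asIdeal :=
    (isArithFrobAt_frob Q).mem_stabilizer
  have : (Q.asIdeal.under ℤ).IsMaximal := by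
    have := Q.isMaximal
    exact Ideal.IsMaximal.under ℤ Q.asIdeal
  have : PerfectField (Q.asIdeal.under ℤ).ResidueField := by
    have : Finite (ℤ ⧸ Q.asIdeal.under ℤ) := Nat.finite_of_card_ne_zero (by
      rw [card_quotient_under_int]; exact (residueChar_prime Q).ne_zero)
    have : Finite (Q.asIdeal.under ℤ).ResidueField := Finite.of_surjective _
      (Ideal.bijective_algebraMap_quotient_residueField (Q.asIdeal.under ℤ)).2
    exact PerfectField.ofFinite
  have hcard := Ideal.card_stabilizer_eq_card_inertia_mul_finrank (G := Gal(F/ℚ))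
    (Q.asIdeal.under ℤ) Q.asIdeal
  rw [show Q.asIdeal.inertia Gal(F/ℚ) = ⊥ from hQ, Subgroup.card_bot, one_mul] at hcard
  set f := Q.asIdeal.inertiaDeg ℤ
  refine Subgroup.eq_of_le_of_card_ge (Subgroup.zpowers_le.mpr hmem) ?_
  rw [hcard, Nat.card_zpowers]
  set ℓ := residueChar Q with hℓ
  set k := orderOf (frob Q)
  have hpow : ∀ n : ℕ, ∀ x : 𝓞 F, Ideal.Quotient.mk Q.asIdeal (frob Q ^ n • x) =
      Ideal.Quotient.mk Q.asIdeal x ^ ℓ ^ n := by
    intro n
    induction n with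
    | zero => intro x; simp
    | succ n ih =>
      intro x
      rw [pow_succ', mul_smul, hℓ, ← card_quotient_under_int, pow_succ, pow_mul,
        card_quotient_under_int, ← ih x, ← card_quotient_under_int]
      exact (isArithFrobAt_frob Q).mk_apply (frob Q ^ n • x)
  have hℓ2 := (residueChar_prime Q).two_le
  have hroots : Nat.card (𝓞 F ⧸ Q.asIdeal) ≤ ℓ ^ k := by
    have : Q.asIdeal.IsMaximal := Q.isMaximal
    let _ : Field (𝓞 F ⧸ Q.asIdeal) := Ideal.Quotient.field _
    have h1 : 1 < ℓ ^ k := Nat.one_lt_pow (orderOf_pos _).ne' hℓ2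
    cases nonempty_fintype (𝓞 F ⧸ Q.asIdeal)
    rw [Nat.card_eq_fintype_card, ← Finset.card_univ]
    refine le_trans ?_ ((Polynomial.card_roots' _).trans
      (FiniteField.X_pow_card_sub_X_natDegree_eq (𝓞 F ⧸ Q.asIdeal) h1).le)
    refine le_trans (Finset.card_le_card fun y _ => ?_) (Multiset.toFinset_card_le _)
    obtain ⟨x, rfl⟩ := Ideal.Quotient.mk_surjective y
    rw [Multiset.mem_toFinset,
      Polynomial.mem_roots (FiniteField.X_pow_card_sub_X_ne_zero _ h1)]
    simp [← hpow, k, pow_orderOf_eq_one]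
  rw [← Submodule.cardQuot_apply, ← Ideal.absNorm_apply,
    ← Ideal.absNorm_pow_inertiaDeg (Q.asIdeal.under ℤ) Q.asIdeal] at hroots
  exact (Nat.pow_le_pow_iff_right hℓ2).mp hroots

/-- The summand of `frobMass`. -/
def frobWeight (s : ℝ) (Q : HeightOneSpectrum (𝓞 F)) : ℝ :=
  (orderOf (frob Q) : ℝ) * (residueChar Q : ℝ) ^ (-s)

/-- The weighted sum over good primes in a set. -/
def frobMass (S : Set (HeightOneSpectrum (𝓞 F))) (s : ℝ) : ℝ :=
  ∑' Q, ({Q | IsGood Q} ∩ S).indicator (frobWeight s) Q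

/-- The prime of the fixed field of `H` below a prime of `F`. -/
abbrev fixedUnder (H : Subgroup Gal(F/ℚ)) (Q : HeightOneSpectrum (𝓞 F)) :
    HeightOneSpectrum (𝓞 (IntermediateField.fixedField H)) :=
  HeightOneSpectrum.under _ Q

lemma smul_coe_fixed {H : Subgroup Gal(F/ℚ)} {σ : Gal(F/ℚ)} (hσ : σ ∈ H)
    (x : 𝓞 (IntermediateField.fixedField H)) :
    σ • algebraMap (𝓞 (IntermediateField.fixedField H)) (𝓞 F) x =
      algebraMap (𝓞 (IntermediateField.fixedField H)) (𝓞 F) x :=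
  RingOfIntegers.coe_injective ((IntermediateField.mem_fixedField_iff H _).mp
    (x : IntermediateField.fixedField H).2 σ hσ)

lemma absNorm_fixedUnder {H : Subgroup Gal(F/ℚ)} {Q : HeightOneSpectrum (𝓞 F)} (hQ : IsGood Q)
    (h : frob Q ∈ H) : Ideal.absNorm (fixedUnder H Q).asIdeal = residueChar Q := by
  classical
  have := hQ
  set P := fixedUnder H Q
  set ℓ := residueChar Q
  have hℓ := residueChar_prime Q
  have : P.asIdeal.IsMaximal := P.isMaximal
  let _ : Field (𝓞 (IntermediateField.fixedField H) ⧸ P.asIdeal) := Ideal.Quotient.field _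
  have : Finite (𝓞 (IntermediateField.fixedField H) ⧸ P.asIdeal) :=
    Ring.HasFiniteQuotients.finiteQuotient P.ne_bot
  cases nonempty_fintype (𝓞 (IntermediateField.fixedField H) ⧸ P.asIdeal)
  have hle : Ideal.absNorm P.asIdeal ≤ ℓ := by
    rw [Ideal.absNorm_apply, Submodule.cardQuot_apply, Nat.card_eq_fintype_card, ← Finset.card_univ]
    refine le_trans ?_ ((Polynomial.card_roots' _).trans (FiniteField.X_pow_card_sub_X_natDegree_eq
      (𝓞 (IntermediateField.fixedField H) ⧸ P.asIdeal) hℓ.one_lt).le)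
    refine le_trans (Finset.card_le_card fun y _ => ?_) (Multiset.toFinset_card_le _)
    obtain ⟨x, rfl⟩ := Ideal.Quotient.mk_surjective y
    rw [Multiset.mem_toFinset,
      Polynomial.mem_roots (FiniteField.X_pow_card_sub_X_ne_zero _ hℓ.one_lt)]
    have hx := isArithFrobAt_frob Q (algebraMap _ (𝓞 F) x)
    replace hx : frob Q • algebraMap _ (𝓞 F) x -
        algebraMap _ (𝓞 F) x ^ Nat.card (ℤ ⧸ Q.asIdeal.under ℤ) ∈ Q.asIdeal := hx
    rw [smul_coe_fixed h, card_quotient_under_int, ← map_pow, ← map_sub] at hx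
    have hx' : x - x ^ ℓ ∈ P.asIdeal := hx
    simp only [Polynomial.IsRoot.def, Polynomial.eval_sub, Polynomial.eval_pow, Polynomial.eval_X,
      ← map_pow]
    exact sub_eq_zero.mpr (Ideal.Quotient.eq.mpr hx').symm
  refine le_antisymm hle ?_
  obtain ⟨l, f, hl, hf, hn, hmem⟩ := DegOne.exists_norm_eq_pow P.isPrime P.ne_bot
  have hlQ : (l : 𝓞 F) ∈ Q.asIdeal := by
    have := hmem
    rwa [show P.asIdeal = Q.asIdeal.under _ from rfl, Ideal.mem_comap, map_natCast] at this
  have : (ℓ : ℤ) ∣ (l : ℤ) := Int.cast_mem_ideal_iff.mp (by simpa using hlQ)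
  rw [hn, ← (Nat.prime_dvd_prime_iff_eq hℓ hl).mp (Int.natCast_dvd_natCast.mp this)]
  exact Nat.le_self_pow hf.ne' _

/-- A degree-one prime under a good prime has its Frobenius in the subgroup. -/
lemma frob_mem_of_prime {H : Subgroup Gal(F/ℚ)} {Q : HeightOneSpectrum (𝓞 F)} (hQ : IsGood Q)
    (hP : (Ideal.absNorm (fixedUnder H Q).asIdeal).Prime) : frob Q ∈ H := by
  set P := fixedUnder H Q
  have hinv : Algebra.IsInvariant (𝓞 (IntermediateField.fixedField H)) (𝓞 F) H := ⟨fun b hb => by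
    have hmem : (b : F) ∈ IntermediateField.fixedField H :=
      (IntermediateField.mem_fixedField_iff H _).mpr fun σ hσ =>
        congrArg (fun z : 𝓞 F => (z : F)) (hb ⟨σ, hσ⟩)
    exact ⟨⟨⟨(b : F), hmem⟩, (isIntegral_algHom_iff
      ((IntermediateField.fixedField H).val.restrictScalars ℤ) Subtype.val_injective).mp b.2⟩,
      RingOfIntegers.coe_injective rfl⟩⟩
  have : SMulCommClass H (𝓞 (IntermediateField.fixedField H)) (𝓞 F) := ⟨fun σ x y => by
    simp only [Algebra.smul_def, Subgroup.smul_def, smul_mul', smul_coe_fixed σ.2]⟩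
  obtain ⟨τ, hτ⟩ := IsArithFrobAt.exists_of_isInvariant
    (𝓞 (IntermediateField.fixedField H)) H Q.asIdeal
  have hℓ : Ideal.absNorm P.asIdeal = residueChar Q := by
    obtain ⟨l, f, hl, hf, hn, hmem⟩ := DegOne.exists_norm_eq_pow P.isPrime P.ne_bot
    have hlQ : (l : 𝓞 F) ∈ Q.asIdeal := by
      have := hmem
      rwa [show P.asIdeal = Q.asIdeal.under _ from rfl, Ideal.mem_comap, map_natCast] at this
    have hdvd : (residueChar Q : ℤ) ∣ (l : ℤ) := Int.cast_mem_ideal_iff.mp (by simpa using hlQ)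
    rw [(Nat.prime_dvd_prime_iff_eq (residueChar_prime Q) hl).mp (Int.natCast_dvd_natCast.mp hdvd),
      hn, ((Nat.Prime.pow_eq_iff hP).mp hn.symm).2, pow_one]
  have hτ' : IsArithFrobAt ℤ (τ : Gal(F/ℚ)) Q.asIdeal := fun x => by
    have := hτ x
    rw [card_quotient_under_int, ← hℓ, Ideal.absNorm_apply, Submodule.cardQuot_apply]
    exact this
  exact eq_frob hQ hτ' ▸ τ.2

lemma fixedUnder_conjPrime {H : Subgroup Gal(F/ℚ)} {g : Gal(F/ℚ)} (hg : g ∈ H)
    (Q : HeightOneSpectrum (𝓞 F)) : fixedUnder H (conjPrime g Q) = fixedUnder H Q := by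
  refine HeightOneSpectrum.ext (Ideal.ext fun x => ?_)
  show algebraMap _ (𝓞 F) x ∈ g • Q.asIdeal ↔ algebraMap _ (𝓞 F) x ∈ Q.asIdeal
  conv_lhs => rw [← smul_coe_fixed hg x]
  exact Ideal.smul_mem_pointwise_smul_iff

lemma exists_conjPrime_eq {H : Subgroup Gal(F/ℚ)} {Q Q' : HeightOneSpectrum (𝓞 F)}
    (h : fixedUnder H Q = fixedUnder H Q') : ∃ g ∈ H, Q' = conjPrime g Q := by
  have hinv : Algebra.IsInvariant (𝓞 (IntermediateField.fixedField H)) (𝓞 F) H := ⟨fun b hb => by
    have hmem : (b : F) ∈ IntermediateField.fixedField H :=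
      (IntermediateField.mem_fixedField_iff H _).mpr fun σ hσ =>
        congrArg (fun z : 𝓞 F => (z : F)) (hb ⟨σ, hσ⟩)
    exact ⟨⟨⟨(b : F), hmem⟩, (isIntegral_algHom_iff
      ((IntermediateField.fixedField H).val.restrictScalars ℤ) Subtype.val_injective).mp b.2⟩,
      RingOfIntegers.coe_injective rfl⟩⟩
  have : SMulCommClass H (𝓞 (IntermediateField.fixedField H)) (𝓞 F) := ⟨fun σ x y => by
    simp only [Algebra.smul_def, Subgroup.smul_def, smul_mul', smul_coe_fixed σ.2]⟩
  obtain ⟨g, hg⟩ := Algebra.IsInvariant.exists_smul_of_under_eq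
    (𝓞 (IntermediateField.fixedField H)) (𝓞 F) H Q.asIdeal Q'.asIdeal
    (congrArg HeightOneSpectrum.asIdeal h)
  exact ⟨g, g.2, HeightOneSpectrum.ext hg⟩

/-- The weights over one prime of the fixed field sum to the order of the subgroup. -/
lemma sum_fiber_eq (H : Subgroup Gal(F/ℚ)) (P : HeightOneSpectrum (𝓞 (IntermediateField.fixedField H)))
    [Fintype {Q // fixedUnder H Q = P}]
    (Q₀ : {Q // fixedUnder H Q = P}) (hQ₀ : IsGood Q₀.1) (hfrob : frob Q₀.1 ∈ H) (s : ℝ) :
    ∀ Q : {Q // fixedUnder H Q = P}, IsGood Q.1 ∧ frob Q.1 ∈ H ∧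
      ∑ Q : {Q // fixedUnder H Q = P}, frobWeight s Q.1 = (Nat.card H : ℝ) * primeNorm P ^ (-s) := by
  have hall : ∀ Q : {Q // fixedUnder H Q = P}, IsGood Q.1 ∧ frob Q.1 ∈ H ∧
      orderOf (frob Q.1) = orderOf (frob Q₀.1) := by
    intro Q
    obtain ⟨g, hg, hgQ⟩ := exists_conjPrime_eq (Q₀.2.trans Q.2.symm)
    obtain ⟨hgood, hf⟩ := frob_conjPrime g hQ₀
    rw [hgQ, hf]
    refine ⟨hgood, H.mul_mem (H.mul_mem hg hfrob) (H.inv_mem hg), ?_⟩
    exact orderOf_injective (MulAut.conj g).toMonoidHom (MulAut.conj g).injective _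
  have hnorm : ∀ Q : {Q // fixedUnder H Q = P}, (residueChar Q.1 : ℝ) = primeNorm P := fun Q => by
    rw [primeNorm, ← congrArg HeightOneSpectrum.asIdeal Q.2,
      absNorm_fixedUnder (hall Q).1 (hall Q).2.1]
  have hcount : Fintype.card {Q // fixedUnder H Q = P} * orderOf (frob Q₀.1) = Nat.card H := by
    have hstab : Nat.card (MulAction.stabilizer H Q₀.1.asIdeal) = orderOf (frob Q₀.1) := by
      rw [← Nat.card_zpowers]
      refine Nat.card_congr ⟨fun σ => ⟨σ.1.1, by rw [zpowers_frob hQ₀]; exact σ.2⟩,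
        fun σ => ⟨⟨σ.1, Subgroup.zpowers_le.mpr hfrob σ.2⟩, (zpowers_frob hQ₀).le σ.2⟩,
        fun _ => rfl, fun _ => rfl⟩
    let e : {Q // fixedUnder H Q = P} ≃ MulAction.orbit H Q₀.1.asIdeal :=
      Equiv.ofBijective (fun Q => ⟨Q.1.asIdeal, by
        obtain ⟨g, hg, hgQ⟩ := exists_conjPrime_eq (Q₀.2.trans Q.2.symm)
        exact ⟨⟨g, hg⟩, (congrArg HeightOneSpectrum.asIdeal hgQ).symm⟩⟩)
        ⟨fun Q Q' h => Subtype.ext (HeightOneSpectrum.ext (congrArg Subtype.val h)), by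
          rintro ⟨_, g, rfl⟩
          exact ⟨⟨conjPrime g.1 Q₀.1, (fixedUnder_conjPrime g.2 _).trans Q₀.2⟩, rfl⟩⟩
    rw [← Nat.card_eq_fintype_card, Nat.card_congr e, ← hstab, ← Nat.card_prod,
      Nat.card_congr (MulAction.orbitProdStabilizerEquivGroup H Q₀.1.asIdeal)]
  intro Q
  refine ⟨(hall Q).1, (hall Q).2.1, ?_⟩
  simp only [frobWeight, hnorm, (hall _).2.2, Finset.sum_const, Finset.card_univ, nsmul_eq_mul]
  rw [← hcount]
  push_cast
  ring

/-- The exact transfer: only degree-one primes below good primes count. -/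
lemma hasSum_frobWeight (H : Subgroup Gal(F/ℚ))
    (X : Set (HeightOneSpectrum (𝓞 (IntermediateField.fixedField H)))) {s : ℝ} (hs : 1 < s) :
    HasSum (({Q | IsGood Q} ∩ {Q | frob Q ∈ H ∧ fixedUnder H Q ∈ X}).indicator (frobWeight s))
      ((Nat.card H : ℝ) * primeSum
        (X ∩ {P | (Ideal.absNorm P.asIdeal).Prime ∧ ∃ Q, IsGood Q ∧ fixedUnder H Q = P}) s) := by
  classical
  set D : Set (HeightOneSpectrum (𝓞 (IntermediateField.fixedField H))) :=
    X ∩ {P | (Ideal.absNorm P.asIdeal).Prime ∧ ∃ Q, IsGood Q ∧ fixedUnder H Q = P} with hD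
  set S : Set (HeightOneSpectrum (𝓞 F)) :=
    {Q | IsGood Q} ∩ {Q | frob Q ∈ H ∧ fixedUnder H Q ∈ X} with hS
  have hfin : ∀ P, Finite {Q // fixedUnder H Q = P} := fun P => Set.Finite.to_subtype
    (s := {Q | fixedUnder H Q = P}) <|
    (Ideal.finite_factors (I := P.asIdeal.map (algebraMap _ (𝓞 F)))
      ((Ideal.map_eq_bot_iff_of_injective (FaithfulSMul.algebraMap_injective _ _)).not.mpr
        P.ne_bot)).subset fun Q hQ => Ideal.dvd_iff_le.mpr
          (Ideal.map_le_iff_le_comap.mpr (le_of_eq (congrArg HeightOneSpectrum.asIdeal hQ).symm))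
  have := fun P => Fintype.ofFinite {Q // fixedUnder H Q = P}
  have hfib : ∀ P, ∑ Q : {Q // fixedUnder H Q = P}, S.indicator (frobWeight s) Q.1 =
      (Nat.card H : ℝ) * D.indicator (fun P => primeNorm P ^ (-s)) P := by
    intro P
    by_cases hP : P ∈ D
    · obtain ⟨hPX, hprime, Q₀, hQ₀, rfl⟩ := hP
      have hmem : fixedUnder H Q₀ ∈ D := ⟨hPX, hprime, Q₀, hQ₀, rfl⟩
      have h := sum_fiber_eq H _ ⟨Q₀, rfl⟩ hQ₀ (frob_mem_of_prime hQ₀ hprime) s
      rw [Set.indicator_of_mem hmem, ← (h ⟨Q₀, rfl⟩).2.2]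
      exact Finset.sum_congr rfl fun Q _ => Set.indicator_of_mem
        (show Q.1 ∈ S from ⟨(h Q).1, (h Q).2.1, by rw [Q.2]; exact hPX⟩) _
    · rw [Set.indicator_of_notMem hP, mul_zero]
      refine Finset.sum_eq_zero fun Q _ => Set.indicator_of_notMem (fun hQ => hP ?_) _
      obtain ⟨hg, hf, hX⟩ := hQ
      refine ⟨Q.2 ▸ hX, ?_, Q.1, hg, Q.2⟩
      rw [← Q.2, absNorm_fixedUnder hg hf]
      exact residueChar_prime Q.1
  have hsummable : Summable fun P => D.indicator (fun P => primeNorm P ^ (-s)) P :=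
    (summable_primeNorm hs).indicator D
  have hsigma : Summable fun x : Σ P, {Q // fixedUnder H Q = P} =>
      S.indicator (frobWeight s) x.2.1 := by
    refine (summable_sigma_of_nonneg (f := fun x : Σ P, {Q // fixedUnder H Q = P} =>
      S.indicator (frobWeight s) x.2.1) fun x => Set.indicator_nonneg
      (fun Q _ => mul_nonneg (Nat.cast_nonneg _) (Real.rpow_nonneg (Nat.cast_nonneg _) _)) _).mpr
      ⟨fun P => Summable.of_finite, ?_⟩
    simp only [tsum_fintype, hfib]
    exact hsummable.mul_left _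
  rw [← (Equiv.sigmaFiberEquiv (fixedUnder H)).hasSum_iff]
  have hval : ∑' x : Σ P, {Q // fixedUnder H Q = P}, S.indicator (frobWeight s) x.2.1 =
      (Nat.card H : ℝ) * primeSum D s := by
    rw [hsigma.tsum_sigma, primeSum, ← tsum_mul_left]
    exact tsum_congr fun P => (tsum_fintype _).trans (hfib P)
  exact hval ▸ hsigma.hasSum

lemma summable_frobWeight (S : Set (HeightOneSpectrum (𝓞 F))) {s : ℝ} (hs : 1 < s) :
    Summable (({Q | IsGood Q} ∩ S).indicator (frobWeight s)) := by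
  have h := (hasSum_frobWeight (⊤ : Subgroup Gal(F/ℚ)) Set.univ hs).summable.indicator S
  rw [Set.indicator_indicator] at h
  refine h.congr fun Q => ?_
  congr 1
  ext
  simp [and_comm]

lemma frobMass_mono {S T : Set (HeightOneSpectrum (𝓞 F))} {s : ℝ} (hs : 1 < s)
    (h : ∀ Q, IsGood Q → Q ∈ S → Q ∈ T) : frobMass S s ≤ frobMass T s :=
  (summable_frobWeight S hs).tsum_le_tsum (fun Q => Set.indicator_le_indicator_of_subset
    (show {Q | IsGood Q} ∩ S ⊆ {Q | IsGood Q} ∩ T from fun _ hQ => ⟨hQ.1, h _ hQ.1 hQ.2⟩)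
    (fun Q => mul_nonneg (Nat.cast_nonneg _) (Real.rpow_nonneg (Nat.cast_nonneg _) _)) Q)
    (summable_frobWeight T hs)

lemma frobMass_union_le {S T : Set (HeightOneSpectrum (𝓞 F))} {s : ℝ} (hs : 1 < s) :
    frobMass (S ∪ T) s ≤ frobMass S s + frobMass T s := by
  rw [frobMass, frobMass, frobMass, ← (summable_frobWeight S hs).tsum_add (summable_frobWeight T hs)]
  refine (summable_frobWeight _ hs).tsum_le_tsum (fun Q => ?_)
    ((summable_frobWeight S hs).add (summable_frobWeight T hs))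
  have hnn : 0 ≤ frobWeight s Q :=
    mul_nonneg (Nat.cast_nonneg _) (Real.rpow_nonneg (Nat.cast_nonneg _) _)
  by_cases hg : IsGood Q <;> by_cases hS : Q ∈ S <;> by_cases hT : Q ∈ T <;>
    simp [Set.indicator, hg, hS, hT, hnn]

/-- Primes of non-prime norm contribute `O(1)`. -/
lemma exists_primeSum_not_prime_le {M : Type} [Field M] [NumberField M] :
    ∃ C : ℝ, ∀ s : ℝ, 1 < s →
      primeSum {P : HeightOneSpectrum (𝓞 M) | ¬ (Ideal.absNorm P.asIdeal).Prime} s ≤ C := by
  classical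
  refine ⟨2 * Module.finrank ℚ M / (1 : ℕ), fun s hs => ?_⟩
  set A : Set (HeightOneSpectrum (𝓞 M)) := {P | ¬ (Ideal.absNorm P.asIdeal).Prime} with hA
  have hnn : ∀ P, 0 ≤ A.indicator (fun P => primeNorm P ^ (-s)) P := fun P =>
    Set.indicator_nonneg (fun P _ => Real.rpow_nonneg (primeNorm_pos P).le _) P
  have hbound : ∀ T : Finset (HeightOneSpectrum (𝓞 M)),
      ∑ P ∈ T, A.indicator (fun P => primeNorm P ^ (-s)) P ≤
        2 * Module.finrank ℚ M / (1 : ℕ) := by
    intro T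
    have hmem : ∀ I ∈ (T.filter (· ∈ A)).image HeightOneSpectrum.asIdeal, I.IsPrime ∧ I ≠ ⊥ ∧
        ¬ DegOne.IsGood M 0 I ∧ 1 ^ 2 < Ideal.absNorm I := by
      intro I hI
      obtain ⟨P, hP, rfl⟩ := Finset.mem_image.mp hI
      refine ⟨P.isPrime, P.ne_bot, fun hg => (Finset.mem_filter.mp hP).2 hg.1, ?_⟩
      obtain ⟨l, f, hl, hf, hn, -⟩ := DegOne.exists_norm_eq_pow P.isPrime P.ne_bot
      rw [hn, one_pow]
      exact Nat.one_lt_pow hf.ne' hl.one_lt
    have h1 := DegOne.sum_inv_norm_le (N₀ := 0) (M := 1) le_rfl (Nat.zero_le _) _ hmem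
    rw [Finset.sum_image fun P _ P' _ h => HeightOneSpectrum.ext h] at h1
    refine le_trans ?_ h1
    rw [Finset.sum_filter]
    refine Finset.sum_le_sum fun P _ => ?_
    by_cases hP : P ∈ A
    · rw [Set.indicator_of_mem hP, if_pos hP, ← Real.rpow_neg_one]
      exact Real.rpow_le_rpow_of_exponent_le (by linarith [two_le_primeNorm P]) (by linarith)
    · rw [Set.indicator_of_notMem hP, if_neg hP]
  exact Real.tsum_le_of_sum_le hnn hbound

/-- The transfer of prime sums. -/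
theorem exists_abs_frobMass_sub_le (H : Subgroup Gal(F/ℚ)) :
    ∃ C : ℝ, ∀ (X : Set (HeightOneSpectrum (𝓞 (IntermediateField.fixedField H)))) (s : ℝ),
      1 < s → s ≤ 2 →
        |frobMass {Q | frob Q ∈ H ∧ fixedUnder H Q ∈ X} s - (Nat.card H : ℝ) * primeSum X s| ≤
          C := by
  classical
  obtain ⟨C, hC⟩ := exists_primeSum_not_prime_le (M := IntermediateField.fixedField H)
  set B : Set (HeightOneSpectrum (𝓞 (IntermediateField.fixedField H))) :=
    fixedUnder H '' {Q | ¬ IsGood Q}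
  have hB : B.Finite := finite_not_isGood.image _
  refine ⟨(Nat.card H : ℝ) * (C + hB.toFinset.card), fun X s hs _ => ?_⟩
  set D : Set (HeightOneSpectrum (𝓞 (IntermediateField.fixedField H))) :=
    {P | (Ideal.absNorm P.asIdeal).Prime ∧ ∃ Q, IsGood Q ∧ fixedUnder H Q = P}
  have hval : frobMass {Q | frob Q ∈ H ∧ fixedUnder H Q ∈ X} s =
      (Nat.card H : ℝ) * primeSum (X ∩ D) s := (hasSum_frobWeight H X hs).tsum_eq
  have hsum : ∀ A, Summable (Set.indicator A fun P : HeightOneSpectrum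
      (𝓞 (IntermediateField.fixedField H)) => primeNorm P ^ (-s)) :=
    fun A => (summable_primeNorm hs).indicator A
  have hnn : ∀ P : HeightOneSpectrum (𝓞 (IntermediateField.fixedField H)),
      0 ≤ primeNorm P ^ (-s) := fun P => Real.rpow_nonneg (primeNorm_pos P).le _
  have hdiff : primeSum X s - primeSum (X ∩ D) s = primeSum (X \ D) s := by
    rw [primeSum, primeSum, primeSum, ← (hsum X).tsum_sub (hsum (X ∩ D))]
    refine tsum_congr fun P => ?_
    by_cases h1 : P ∈ X <;> by_cases h2 : P ∈ D <;> simp [Set.indicator, h1, h2]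
  have hbound : primeSum (X \ D) s ≤ C + hB.toFinset.card := by
    have hle : primeSum (X \ D) s ≤
        primeSum {P : HeightOneSpectrum (𝓞 (IntermediateField.fixedField H)) |
          ¬ (Ideal.absNorm P.asIdeal).Prime} s + primeSum B s := by
      rw [primeSum, primeSum, primeSum, ← (hsum _).tsum_add (hsum B)]
      refine (hsum _).tsum_le_tsum (fun P => ?_) ((hsum _).add (hsum B))
      by_cases hP : P ∈ X \ D
      · rw [Set.indicator_of_mem hP]
        by_cases hprime : (Ideal.absNorm P.asIdeal).Prime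
        · have := P.isMaximal
          obtain ⟨Q', hQ', hP'⟩ := Ideal.exists_maximal_ideal_liesOver_of_isIntegral
            (S := 𝓞 F) P.asIdeal
          have hPB : P ∈ B := by
            refine ⟨⟨Q', hQ'.isPrime, Ideal.ne_bot_of_liesOver_of_ne_bot P.ne_bot Q'⟩, ?_,
              HeightOneSpectrum.ext (hP'.over).symm⟩
            intro hgood
            exact hP.2 ⟨hprime, _, hgood, HeightOneSpectrum.ext (hP'.over).symm⟩
          rw [Set.indicator_of_mem hPB]
          exact le_add_of_nonneg_left (Set.indicator_nonneg (fun P _ => hnn P) _)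
        · rw [Set.indicator_of_mem (show P ∈ {P : HeightOneSpectrum (𝓞 (IntermediateField.fixedField H)) |
            ¬ (Ideal.absNorm P.asIdeal).Prime} from hprime)]
          exact le_add_of_nonneg_right (Set.indicator_nonneg (fun P _ => hnn P) _)
      · rw [Set.indicator_of_notMem hP]
        exact add_nonneg (Set.indicator_nonneg (fun P _ => hnn P) _)
          (Set.indicator_nonneg (fun P _ => hnn P) _)
    have hBle : primeSum B s ≤ hB.toFinset.card := by
      rw [primeSum, tsum_eq_sum (s := hB.toFinset) fun P hP =>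
        Set.indicator_of_notMem (fun h => hP (hB.mem_toFinset.mpr h)) _]
      refine (Finset.sum_le_sum fun P _ => (Set.indicator_le_self' (fun P _ => hnn P) P).trans
        ((primeNorm_rpow_le_half P hs).trans (by norm_num : (1 : ℝ) / 2 ≤ 1))).trans ?_
      simp
    linarith [hC s hs]
  have h0 : 0 ≤ primeSum (X \ D) s :=
    tsum_nonneg fun P => Set.indicator_nonneg (fun P _ => hnn P) _
  rw [hval, ← mul_sub, abs_mul, Nat.abs_cast]
  refine mul_le_mul_of_nonneg_left ?_ (Nat.cast_nonneg _)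
  rw [abs_sub_comm, hdiff, abs_of_nonneg h0]
  exact hbound

section Tower

variable {M M' : Type} [Field M] [NumberField M] [Field M'] [NumberField M'] [Algebra M M']
  [Algebra M F] [Algebra M' F] [IsScalarTower M M' F]

omit [IsGalois ℚ F] in
/-- A prime with the same norm as the prime below it has that prime as relative norm. -/
lemma relNorm_under_eq (Q : HeightOneSpectrum (𝓞 F))
    (hq : Nat.Prime (Ideal.absNorm (Q.asIdeal.under (𝓞 M))))
    (h : Ideal.absNorm (Q.asIdeal.under (𝓞 M')) = Ideal.absNorm (Q.asIdeal.under (𝓞 M))) :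
    Ideal.relNorm (𝓞 M) (Q.asIdeal.under (𝓞 M')) = Q.asIdeal.under (𝓞 M) := by
  have : (Q.asIdeal.under (𝓞 M')).LiesOver (Q.asIdeal.under (𝓞 M)) :=
    ⟨(Ideal.under_under (A := 𝓞 M) (B := 𝓞 M') Q.asIdeal).symm⟩
  obtain ⟨k, hk⟩ := Ideal.exists_relNorm_eq_pow_of_isPrime (Q.asIdeal.under (𝓞 M'))
    (Q.asIdeal.under (𝓞 M))
  have hn := congrArg Ideal.absNorm hk
  rw [Ideal.absNorm_relNorm, map_pow, h] at hn
  rw [hk, ((Nat.Prime.pow_eq_iff hq).mp hn.symm).2, pow_one]

/-- No inertia between two levels means unramified. -/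
lemma not_sq_dvd_of_inertia
    (h : ∀ Q : Ideal (𝓞 F), Q.IsMaximal → ∀ σ ∈ Q.inertia Gal(F/ℚ),
      (∀ x : M, σ (algebraMap M F x) = algebraMap M F x) →
        ∀ x : M', σ (algebraMap M' F x) = algebraMap M' F x)
    (P : Ideal (𝓞 M')) (hP : P.IsPrime) (hP0 : P ≠ ⊥) :
    ¬ P ^ 2 ∣ (P.under (𝓞 M)).map (algebraMap (𝓞 M) (𝓞 M')) := by
  classical
  have : IsGalois M F := IsGalois.tower_top_of_isGalois ℚ M F
  have : IsGalois M' F := IsGalois.tower_top_of_isGalois ℚ M' F
  have : P.IsMaximal := hP.isMaximal hP0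
  obtain ⟨Q, hQ, hQP⟩ := Ideal.exists_maximal_ideal_liesOver_of_isIntegral (S := 𝓞 F) P
  set p := P.under (𝓞 M)
  have : P.LiesOver p := ⟨rfl⟩
  have : Q.LiesOver p := Ideal.LiesOver.trans Q P p
  have hp0 : p ≠ ⊥ := Ideal.under_ne_bot (𝓞 M) hP0
  have : p.IsMaximal := Ideal.IsMaximal.under (𝓞 M) P
  have : Finite (𝓞 M ⧸ p) := Ring.HasFiniteQuotients.finiteQuotient hp0
  have : Finite (𝓞 M' ⧸ P) := Ring.HasFiniteQuotients.finiteQuotient hP0
  have : Finite p.ResidueField := Finite.of_surjective _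
    (Ideal.bijective_algebraMap_quotient_residueField p).2
  have : Finite P.ResidueField := Finite.of_surjective _
    (Ideal.bijective_algebraMap_quotient_residueField P).2
  have hbij : Nat.card (Q.inertia Gal(F/M)) = Nat.card (Q.inertia Gal(F/M')) := by
    refine Nat.card_congr ⟨fun σ => ⟨AlgEquiv.ofRingEquiv (f := σ.1.toRingEquiv) (fun x =>
        h Q hQ (σ.1.restrictScalars ℚ) σ.2 σ.1.commutes x), σ.2⟩,
      fun σ => ⟨σ.1.restrictScalars M, σ.2⟩, fun σ => Subtype.ext (AlgEquiv.ext fun _ => rfl),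
      fun σ => Subtype.ext (AlgEquiv.ext fun _ => rfl)⟩
  rw [Ideal.card_inertia_eq_ramificationIdxIn p Q, Ideal.card_inertia_eq_ramificationIdxIn P Q,
    Ideal.ramificationIdxIn_eq_ramificationIdx p Q Gal(F/M),
    Ideal.ramificationIdxIn_eq_ramificationIdx P Q Gal(F/M'),
    Ideal.ramificationIdx_tower (R := 𝓞 M) P Q] at hbij
  have he : P.ramificationIdx (𝓞 M) = 1 :=
    (Nat.mul_eq_right (Q.ramificationIdx_pos (𝓞 M')).ne').mp hbij
  have hmap : p.map (algebraMap (𝓞 M) (𝓞 M')) ≠ ⊥ := (Ideal.map_eq_bot_iff_of_injective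
    (FaithfulSMul.algebraMap_injective _ _)).not.mpr hp0
  rw [Ideal.IsDedekindDomain.ramificationIdx_eq_normalizedFactors_count p P hmap] at he
  intro hdvd
  rw [UniqueFactorizationMonoid.dvd_iff_normalizedFactors_le_normalizedFactors
    (pow_ne_zero 2 hP0) hmap, UniqueFactorizationMonoid.normalizedFactors_pow,
    UniqueFactorizationMonoid.normalizedFactors_irreducible
      (Ideal.prime_of_isPrime hP0 hP).irreducible, normalize_eq] at hdvd
  have := Multiset.count_le_of_le P hdvd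
  simp [he] at this

end Tower

end Fermat.Agent.S14.Cross
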