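import Fermat.Agent.S14.Cross.Transfer

/-!
# Densities of Frobenius-weighted sums
-/

set_option autoImplicit false

noncomputable section

namespace Fermat.Agent.S14.Cross

open NumberField IsDedekindDomain

/-- Comparing coefficients of `log (1 / (s - 1))`. -/
lemma coeff_le_of_log {a b C : ℝ}
    (h : ∀ s : ℝ, 1 < s → s ≤ 2 → a * Real.log (1 / (s - 1)) ≤ b * Real.log (1 / (s - 1)) + C) :
    a ≤ b := by
  by_contra hab
  push Not at hab
  obtain ⟨T, hT⟩ : ∃ T : ℝ, T = (|C| + 1) / (a - b) := ⟨_, rfl⟩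
  have hT0 : 0 < T := by rw [hT]; exact div_pos (by positivity) (by linarith)
  have h1 := h (1 + Real.exp (-T)) (by linarith [Real.exp_pos (-T)])
    (by linarith [Real.exp_le_one_iff.mpr (neg_nonpos.mpr hT0.le)])
  rw [add_sub_cancel_left, one_div, ← Real.exp_neg, neg_neg, Real.log_exp] at h1
  have h2 : (a - b) * T = |C| + 1 := by rw [hT, mul_div_cancel₀ _ (by linarith : a - b ≠ 0)]
  nlinarith [le_abs_self C]

variable {F : Type} [Field F] [NumberField F] [IsGalois ℚ F]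

/-- The weight of the primes with Frobenius in a subgroup. -/
lemma exists_frobMass_group (H : Subgroup Gal(F/ℚ)) :
    ∃ C : ℝ, ∀ s : ℝ, 1 < s → s ≤ 2 →
      |frobMass {Q | frob Q ∈ H} s - (Nat.card H : ℝ) * Real.log (1 / (s - 1))| ≤ C := by
  obtain ⟨C₁, h₁⟩ := exists_abs_frobMass_sub_le H
  obtain ⟨C₂, h₂⟩ := exists_abs_primeSum_sub_log_le (K := IntermediateField.fixedField H)
  refine ⟨C₁ + (Nat.card H : ℝ) * C₂, fun s hs1 hs2 => ?_⟩
  have e1 := h₁ Set.univ s hs1 hs2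
  simp only [primeSum, Set.indicator_univ, Set.mem_univ, and_true] at e1
  have e2 := h₂ s hs1 hs2
  have hd : (0 : ℝ) ≤ Nat.card H := Nat.cast_nonneg _
  have := abs_le.mp e1
  have := abs_le.mp e2
  rw [abs_le]
  constructor <;> nlinarith

/-- Lower bound on the weight of a set containing the primes with Frobenius in a subgroup. -/
lemma exists_le_frobMass (H : Subgroup Gal(F/ℚ)) (T : Set (HeightOneSpectrum (𝓞 F)))
    (hT : ∀ Q, IsGood Q → frob Q ∈ H → Q ∈ T) :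
    ∃ C : ℝ, ∀ s : ℝ, 1 < s → s ≤ 2 →
      (Nat.card H : ℝ) * Real.log (1 / (s - 1)) ≤ frobMass T s + C := by
  obtain ⟨C, hC⟩ := exists_frobMass_group H
  refine ⟨C, fun s hs1 hs2 => ?_⟩
  have := abs_le.mp (hC s hs1 hs2)
  linarith [frobMass_mono (S := {Q | frob Q ∈ H}) (T := T) hs1 (fun Q hQ h => hT Q hQ h)]

/-- The weight of primes with Frobenius in `H` whose class below is killed by a homomorphism. -/
lemma exists_frobMass_ker_le (H : Subgroup Gal(F/ℚ)) {A : Type*} [CommGroup A]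
    (Φ : ClassGroup (𝓞 (IntermediateField.fixedField H)) →* A) :
    ∃ C : ℝ, ∀ s : ℝ, 1 < s → s ≤ 2 →
      (Nat.card Φ.range : ℝ) *
        frobMass {Q | frob Q ∈ H ∧ Φ (ClassGroup.mk0 (primeIdeal (fixedUnder H Q))) = 1} s ≤
      (Nat.card H : ℝ) * Real.log (1 / (s - 1)) + C := by
  obtain ⟨C₁, h₁⟩ := exists_abs_frobMass_sub_le H
  obtain ⟨C₂, h₂⟩ := exists_primeSum_ker_le Φ
  refine ⟨(Nat.card Φ.range : ℝ) * C₁ + (Nat.card H : ℝ) * C₂, fun s hs1 hs2 => ?_⟩
  have e1 := (abs_le.mp (h₁ {P | Φ (ClassGroup.mk0 (primeIdeal P)) = 1} s hs1 hs2)).2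
  simp only [Set.mem_ofPred_eq] at e1
  have e2 := h₂ s hs1 hs2
  have hd : (0 : ℝ) ≤ Nat.card H := Nat.cast_nonneg _
  have hr : (0 : ℝ) ≤ Nat.card Φ.range := Nat.cast_nonneg _
  nlinarith [mul_le_mul_of_nonneg_left e1 hr, mul_le_mul_of_nonneg_left e2 hd]

/-- A good prime with Frobenius in `H` outside `H'`. -/
lemma exists_frob_mem_not_mem {H H' : Subgroup Gal(F/ℚ)} (h : Nat.card H' < Nat.card H) :
    ∃ Q, IsGood Q ∧ frob Q ∈ H ∧ frob Q ∉ H' := by
  by_contra hno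
  push Not at hno
  obtain ⟨C, hC⟩ := exists_le_frobMass H {Q | frob Q ∈ H'} hno
  obtain ⟨C', hC'⟩ := exists_frobMass_group H'
  refine absurd (coeff_le_of_log (a := (Nat.card H : ℝ)) (b := Nat.card H') (C := C + C')
    fun s hs1 hs2 => ?_) (by exact_mod_cast h.not_ge)
  linarith [hC s hs1 hs2, (abs_le.mp (hC' s hs1 hs2)).2]

end Fermat.Agent.S14.Cross
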