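import Fermat.Agent.Galois.Unramified
import Fermat.Agent.Galois.Cyclotomic
import Fermat.Prelude.Def_ExtCitation_AdmissibleExtension
import Mathlib.RingTheory.Frobenius
import Mathlib.GroupTheory.SpecificGroups.Cyclic

/-!
# Roots of unity and inertia at a finite Galois level
-/

set_option autoImplicit false
set_option linter.style.haveILetI false

noncomputable section

open scoped NumberField

namespace Fermat.Agent.S14.Cross.BridgeLevel

open Fermat.Agent.Galois (Qbar GalQ)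

theorem cycloExp_lt (p : ℕ) [Fact p.Prime] (σ : GalQ) : ExtCitation.cycloExp p σ < p :=
  haveI : NeZero p := ⟨(Fact.out : p.Prime).ne_zero⟩
  ZMod.val_lt _

theorem apply_root_eq (p : ℕ) [Fact p.Prime] {ζ : Qbar} (hζ : ζ ^ p = 1) (σ : GalQ) :
    σ ζ = ζ ^ ExtCitation.cycloExp p σ := by
  have hp : p.Prime := Fact.out
  haveI : NeZero p := ⟨hp.ne_zero⟩
  exact modularCyclotomicCharacter.spec Qbar (ExtCitation.card_rootsOfUnity_eq_self p)
    (σ : Qbar ≃+* Qbar) (t := Units.ofPowEqOne ζ p hζ hp.ne_zero)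
    ((mem_rootsOfUnity _ _).mpr (Units.pow_ofPowEqOne _ _))

/-- Some automorphism raises a primitive root of unity to a given unit power. -/
theorem exists_apply_root_eq_pow {n : ℕ} [NeZero n] {ζ : Qbar} (hζ : IsPrimitiveRoot ζ n)
    (u : (ZMod n)ˣ) : ∃ σ : GalQ, σ ζ = ζ ^ (u : ZMod n).val := by
  have hn : 0 < n := NeZero.pos n
  obtain ⟨σ, hσ⟩ := minpoly.exists_algEquiv_of_root' (K := ℚ) (x := ζ ^ (u : ZMod n).val)
    (Algebra.IsAlgebraic.isAlgebraic ζ) (by
      rw [← Polynomial.cyclotomic_eq_minpoly_rat hζ hn, Polynomial.aeval_def,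
        Polynomial.eval₂_eq_eval_map, Polynomial.map_cyclotomic]
      exact (hζ.pow_of_coprime _ (ZMod.val_coe_unit_coprime u)).isRoot_cyclotomic hn)
  exact ⟨σ, hσ⟩

section

variable (F : IntermediateField ℚ Qbar) [Normal ℚ F]

/-- Restriction to a normal level. -/
abbrev restrict : GalQ →* Gal(F/ℚ) := AlgEquiv.restrictNormalHom F

theorem coe_restrict (σ : GalQ) (x : F) : ((restrict F σ x : F) : Qbar) = σ x :=
  σ.restrictNormal_commutes F x

theorem restrict_surjective : Function.Surjective (restrict F) :=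
  AlgEquiv.restrictNormalHom_surjective Qbar

theorem smul_eq_of_restrict_eq {V : Type*} [MulAction GalQ V]
    (hN : ∀ σ ∈ F.fixingSubgroup, ∀ v : V, σ • v = v) {σ τ : GalQ}
    (h : restrict F σ = restrict F τ) (v : V) : σ • v = τ • v := by
  have hmem : τ⁻¹ * σ ∈ F.fixingSubgroup := by
    rw [IntermediateField.mem_fixingSubgroup_iff]
    intro x hx
    have h1 := coe_restrict F σ ⟨x, hx⟩
    rw [h, coe_restrict F τ ⟨x, hx⟩] at h1
    rw [AlgEquiv.mul_apply, ← h1, Galois.galQ_inv_apply]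
  calc σ • v = τ • ((τ⁻¹ * σ) • v) := by rw [smul_smul, mul_inv_cancel_left]
    _ = τ • v := by rw [hN _ hmem]

/-- An inertia element of a prime of the level comes from inertia at a place above it. -/
theorem exists_inertia_lift [NumberField F] (Q : Ideal (𝓞 F)) [Q.IsPrime] {q : ℕ} (hq : q.Prime)
    (hqQ : (q : 𝓞 F) ∈ Q) {g : Gal(F/ℚ)} (hg : g ∈ Q.inertia Gal(F/ℚ)) :
    ∃ (A : ValuationSubring Qbar) (i : GalQ), A.LiesOverPrime q ∧
      i ∈ A.inertiaSubgroupIn ℚ ∧ restrict F i = g := by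
  obtain ⟨A, hA, rfl⟩ := Galois.exists_levelPlaceIdeal_eq F hq Q hqQ
  obtain ⟨σ, hσ⟩ := Galois.exists_galQ_restrict F g
  obtain ⟨i, hi, hix⟩ := Galois.exists_inertia_eq_on (σ := σ) F hA hq fun x hx hxi => by
    let y : 𝓞 F := ⟨⟨x, hx⟩,
      (isIntegral_algHom_iff (IsScalarTower.toAlgHom ℤ F Qbar) Subtype.val_injective).mp hxi⟩
    have := (Galois.mem_levelPlaceIdeal_iff F).mp (hg y)
    rw [hσ ⟨x, hx⟩]
    exact this
  refine ⟨A, i, hA, hi, AlgEquiv.ext fun x => Subtype.ext ?_⟩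
  rw [coe_restrict, ← hσ, hix x x.2]

/-- Inertia at a place restricts to inertia at the prime below. -/
theorem restrict_mem_inertia {A : ValuationSubring Qbar} {i : GalQ}
    (hi : i ∈ A.inertiaSubgroupIn ℚ) :
    restrict F i ∈ (Galois.levelPlaceIdeal F A).inertia Gal(F/ℚ) := by
  intro y
  change restrict F i • y - y ∈ Galois.levelPlaceIdeal F A
  rw [Galois.mem_levelPlaceIdeal_iff]
  change ((restrict F i (y : F) : F) : Qbar) - ((y : F) : Qbar) ∈ A.nonunits
  rw [coe_restrict]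
  exact Galois.inertia_sub_mem_nonunits hi (Galois.levelIntegerHom_mem F A y)

end

theorem exists_prime_mem {F : Type*} [Field F] [NumberField F] (Q : Ideal (𝓞 F)) [Q.IsMaximal] :
    ∃ q : ℕ, q.Prime ∧ (q : 𝓞 F) ∈ Q := by
  let _ : Field (𝓞 F ⧸ Q) := Ideal.Quotient.field Q
  have hQ0 : Q ≠ ⊥ :=
    Ring.ne_bot_of_isMaximal_of_not_isField inferInstance (NumberField.RingOfIntegers.not_isField F)
  haveI : Finite (𝓞 F ⧸ Q) := Ring.HasFiniteQuotients.finiteQuotient hQ0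
  obtain ⟨q, hq⟩ := CharP.exists (𝓞 F ⧸ Q)
  refine ⟨q, (CharP.char_is_prime_or_zero (𝓞 F ⧸ Q) q).resolve_right ?_, ?_⟩
  · rintro rfl
    haveI : CharZero (𝓞 F ⧸ Q) := CharP.charP_to_charZero _
    exact not_finite (𝓞 F ⧸ Q)
  · rw [← Ideal.Quotient.eq_zero_iff_mem, map_natCast]
    exact CharP.cast_eq_zero _ _

theorem natCast_notMem_of_coprime {R : Type*} [CommRing R] {Q : Ideal R} (hQ : Q ≠ ⊤) {a b : ℕ}
    (hab : Nat.Coprime a b) (ha : (a : R) ∈ Q) : (b : R) ∉ Q := by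
  intro hb
  apply hQ
  rw [Ideal.eq_top_iff_one]
  obtain ⟨x, y, h⟩ := hab.cast (R := R)
  rw [← h]
  exact add_mem (Q.mul_mem_left x ha) (Q.mul_mem_left y hb)

theorem frob_apply_root {F : Type*} [Field F] [NumberField F] (Q : Ideal (𝓞 F)) [Q.IsMaximal]
    {q : ℕ} (hq : q.Prime) (hqQ : (q : 𝓞 F) ∈ Q) {σ : Gal(F/ℚ)} (hσ : IsArithFrobAt ℤ σ Q)
    {n : ℕ} [NeZero n] (hn : (n : 𝓞 F) ∉ Q) {ζ : F} (hζ : IsPrimitiveRoot ζ n) :
    σ ζ = ζ ^ q := by
  have hz : hζ.toInteger ^ n = 1 := hζ.toInteger_isPrimitiveRoot.pow_eq_one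
  have h := AlgHom.IsArithFrobAt.apply_of_pow_eq_one hσ hz hn
  have hunder : Q.under ℤ = Ideal.span {(q : ℤ)} := by
    refine ((Ideal.IsPrime.isMaximal ?_ ?_).eq_of_le (Ideal.IsPrime.ne_top inferInstance) ?_).symm
    · exact (Ideal.span_singleton_prime (by exact_mod_cast hq.ne_zero)).mpr
        (Nat.prime_iff_prime_int.mp hq)
    · simpa using hq.ne_zero
    · rw [Ideal.span_singleton_le_iff_mem, Ideal.mem_comap]
      simpa using hqQ
  rw [hunder, Int.card_ideal_quot] at h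
  exact congrArg (algebraMap (𝓞 F) F) h

theorem autToPow_eq_iff {F : Type*} [Field F] [Algebra ℚ F] {n : ℕ} [NeZero n] {ζ : F}
    (hζ : IsPrimitiveRoot ζ n) (σ : Gal(F/ℚ)) (e : ℕ) :
    ((hζ.autToPow ℚ σ : (ZMod n)ˣ) : ZMod n) = e ↔ σ ζ = ζ ^ e := by
  rw [← hζ.autToPow_spec ℚ σ]
  constructor
  · intro h
    rw [h, ZMod.val_natCast, hζ.eq_orderOf, pow_mod_orderOf]
  · intro h
    have := hζ.pow_inj (ZMod.val_lt _) (Nat.mod_lt e (NeZero.pos n)) (by
      rw [h]
      conv_rhs => rw [hζ.eq_orderOf, pow_mod_orderOf])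
    rw [← ZMod.natCast_mod e n, ← this, ZMod.natCast_zmod_val]

/-- A surjection from `(ℤ/m)ˣ` to `ℤ/p`. -/
theorem exists_unitsHom {p m : ℕ} [Fact m.Prime] (hm : m % p = 1) :
    ∃ l : Additive (ZMod m)ˣ →+ ZMod p, Function.Surjective l := by
  have hc : IsAddCyclic (Additive (ZMod m)ˣ) := isAddCyclic_additive_iff.mpr inferInstance
  let e := zmodAddCyclicAddEquiv hc
  have hdvd : p ∣ Nat.card (Additive (ZMod m)ˣ) := by
    rw [show Nat.card (Additive (ZMod m)ˣ) = Nat.card (ZMod m)ˣ from rfl, Nat.card_eq_fintype_card,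
      ZMod.card_units, ← Nat.div_add_mod m p, hm, Nat.add_sub_cancel]
    exact dvd_mul_right p _
  refine ⟨(ZMod.castHom hdvd (ZMod p)).toAddMonoidHom.comp e.symm.toAddMonoidHom, fun z => ?_⟩
  obtain ⟨w, hw⟩ := ZMod.castHom_surjective hdvd z
  exact ⟨e w, (congrArg _ (e.symm_apply_apply w)).trans hw⟩

end Fermat.Agent.S14.Cross.BridgeLevel
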