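import Mathlib.NumberTheory.NumberField.Basic
import Mathlib.RingTheory.Frobenius
import Mathlib.FieldTheory.Galois.Basic
import Mathlib.RingTheory.RootsOfUnity.PrimitiveRoots

/-!
# The finite Galois level used to refute a nonsplit admissible extension

`F` contains the field cut out by the extension and the roots of unity of order `p`, `m 0`, `m 1`.
`f` is the extension cocycle, `θ i` an order `p` character of conductor `m i`.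
-/

set_option autoImplicit false

open scoped NumberField

namespace Fermat.Agent.S14.Cross

/-- All that the proof uses about a nonsplit admissible extension. -/
structure Setting (p : ℕ) [Fact p.Prime] (F : Type) [Field F] [NumberField F] where
  ζ : F
  hζ : IsPrimitiveRoot ζ p
  χ : Gal(F/ℚ) →* (ZMod p)ˣ
  χ_spec : ∀ g : Gal(F/ℚ), g ζ = ζ ^ ((χ g : (ZMod p)ˣ) : ZMod p).val
  χ_surj : Function.Surjective χ
  χ_frob : ∀ (Q : Ideal (𝓞 F)) (q : ℕ) (σ : Gal(F/ℚ)), Q.IsMaximal → q.Prime → (q : 𝓞 F) ∈ Q →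
    q ≠ p → IsArithFrobAt ℤ σ Q → ((χ σ : (ZMod p)ˣ) : ZMod p) = q
  f : Gal(F/ℚ) → ZMod p
  f_mul : ∀ σ τ, χ σ = 1 → χ τ = 1 → f (σ * τ) = f σ + f τ
  f_conj : ∀ g σ, χ σ = 1 → f (g * σ * g⁻¹) = (((χ g)⁻¹ : (ZMod p)ˣ) : ZMod p) * f σ
  f_ne : ∃ σ, χ σ = 1 ∧ f σ ≠ 0
  f_inertia : ∀ (Q : Ideal (𝓞 F)), Q.IsMaximal → ∀ σ ∈ Q.inertia Gal(F/ℚ), χ σ = 1 → f σ = 0
  m : Fin 2 → ℕ
  m_prime : ∀ i, (m i).Prime
  m_inj : Function.Injective m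
  m_mod : ∀ i, m i % p = 1
  ℓ : (i : Fin 2) → Additive (ZMod (m i))ˣ →+ ZMod p
  θ : Fin 2 → Gal(F/ℚ) → ZMod p
  θ_mul : ∀ i σ τ, θ i (σ * τ) = θ i σ + θ i τ
  θ_frob : ∀ (i : Fin 2) (Q : Ideal (𝓞 F)) (q : ℕ) (σ : Gal(F/ℚ)), Q.IsMaximal → q.Prime →
    (q : 𝓞 F) ∈ Q → IsArithFrobAt ℤ σ Q →
      ∀ hq : Nat.Coprime q (m i), θ i σ = ℓ i (Additive.ofMul (ZMod.unitOfCoprime q hq))
  θ_inertia : ∀ (i : Fin 2) (Q : Ideal (𝓞 F)), Q.IsMaximal → (m i : 𝓞 F) ∉ Q →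
    ∀ σ ∈ Q.inertia Gal(F/ℚ), θ i σ = 0
  θ_inertia_at : ∀ (i : Fin 2) (Q : Ideal (𝓞 F)), Q.IsMaximal → (m i : 𝓞 F) ∈ Q →
    ∃ σ ∈ Q.inertia Gal(F/ℚ), χ σ = 1 ∧ θ i σ ≠ 0

end Fermat.Agent.S14.Cross
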