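import Fermat.Prelude.Def_ExtCitation_AdmissibleExtension_v2
import Fermat.Prelude.Def_ExtCitation_KummerBridge
import Fermat.Agent.S14.Cross.Setting
import Fermat.Agent.S14.Cross.BridgeLevel
import Mathlib.FieldTheory.KrullTopology
import Mathlib.NumberTheory.PrimesCongruentOne

/-!
# From an admissible extension to the finite level setting

`F` is a Galois level fixing `V` and containing the roots of unity of orders `p`, `m₀`, `m₁`.
The cocycle `f` is the coefficient of `σ v₀ - χ(σ) v₀` on the fixed line `C`. It is nonzero on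
`ker χ`, otherwise a `σ₀` with `χ σ₀ ≠ 1` has an eigenvector spanning a stable complement of `C`.
-/

set_option autoImplicit false
set_option linter.style.haveILetI false

noncomputable section

open scoped NumberField

namespace Fermat.Agent.S14.Cross

open Fermat.Agent.Galois (Qbar GalQ)
open BridgeLevel

theorem exists_level {S : Set GalQ} (hS : IsOpen S) (h1 : (1 : GalQ) ∈ S) (p m₀ m₁ : ℕ) [NeZero p]
    [NeZero m₀] [NeZero m₁] :
    ∃ (F : IntermediateField ℚ Qbar), Normal ℚ F ∧ FiniteDimensional ℚ F ∧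
      (∀ σ ∈ F.fixingSubgroup, σ ∈ S) ∧ (∃ ζ ∈ F, IsPrimitiveRoot ζ p) ∧
      (∃ ζ ∈ F, IsPrimitiveRoot ζ m₀) ∧ (∃ ζ ∈ F, IsPrimitiveRoot ζ m₁) := by
  obtain ⟨E, hE, hES⟩ := (krullTopology_mem_nhds_one_iff ℚ Qbar S).mp (hS.mem_nhds h1)
  haveI := hE
  obtain ⟨a, ha⟩ := HasEnoughRootsOfUnity.exists_primitiveRoot Qbar p
  obtain ⟨b, hb⟩ := HasEnoughRootsOfUnity.exists_primitiveRoot Qbar m₀
  obtain ⟨c, hc⟩ := HasEnoughRootsOfUnity.exists_primitiveRoot Qbar m₁
  let G : IntermediateField ℚ Qbar := IntermediateField.adjoin ℚ {a, b, c}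
  haveI : FiniteDimensional ℚ G := IntermediateField.finiteDimensional_adjoin fun x _ =>
    (Algebra.IsAlgebraic.isAlgebraic (R := ℚ) x).isIntegral
  let H : IntermediateField ℚ Qbar := E ⊔ G
  haveI : FiniteDimensional ℚ H := IntermediateField.finiteDimensional_sup E G
  haveI : Normal ℚ Qbar := IsGalois.to_normal
  have hle : H ≤ IntermediateField.normalClosure ℚ H Qbar := H.le_normalClosure
  have hG : ∀ x ∈ ({a, b, c} : Set Qbar), x ∈ IntermediateField.normalClosure ℚ H Qbar :=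
    fun x hx => hle ((le_sup_right : G ≤ H) (IntermediateField.subset_adjoin ℚ _ hx))
  haveI : Normal ℚ (IntermediateField.normalClosure ℚ H Qbar) := normalClosure.normal ℚ H Qbar
  refine ⟨IntermediateField.normalClosure ℚ H Qbar, inferInstance, inferInstance,
    fun σ hσ => hES (IntermediateField.fixingSubgroup_antitone
      ((le_sup_left : E ≤ H).trans hle) hσ), ⟨a, hG a (by simp), ha⟩, ⟨b, hG b (by simp), hb⟩,
      ⟨c, hG c (by simp), hc⟩⟩

variable {p : ℕ} [Fact p.Prime] {V : Type} [AddCommGroup V] [Module (ZMod p) V]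
  [DistribMulAction GalQ V] [SMulCommClass GalQ (ZMod p) V] {C : Submodule (ZMod p) V}

omit [SMulCommClass GalQ (ZMod p) V] in
/-- A vector outside the line, the generator of the line and the coefficient functions. -/
theorem exists_frame (hV : ExtCitation.IsAdmissibleExtension p V C) :
    ∃ (v₀ c : V) (d : GalQ → ZMod p), c ∈ C ∧ c ≠ 0 ∧ v₀ ∉ C ∧
      (∀ x ∈ C, ∃ a : ZMod p, x = a • c) ∧
      ∀ σ : GalQ, σ • v₀ = (ExtCitation.cycloExp p σ : ZMod p) • v₀ + d σ • c := by
  classical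
  have hp : p.Prime := Fact.out
  haveI : Finite V := Nat.finite_of_card_ne_zero (hV.card_total ▸ pow_ne_zero 2 hp.ne_zero)
  obtain ⟨c, hc, hc0⟩ : ∃ c ∈ C, c ≠ 0 := by
    refine C.exists_mem_ne_zero_of_ne_bot fun h => hp.one_lt.ne' ?_
    rw [← hV.card_sub, h]
    exact Nat.card_eq_one_iff_unique.mpr ⟨inferInstance, inferInstance⟩
  have hsurj : ∀ x ∈ C, ∃ a : ZMod p, x = a • c := by
    let φ : ZMod p → C := fun a => ⟨a • c, C.smul_mem a hc⟩
    have hinj : Function.Injective φ := fun a b h => by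
      have h' : (a - b) • c = 0 := by rw [sub_smul, sub_eq_zero]; exact congrArg Subtype.val h
      exact sub_eq_zero.mp ((smul_eq_zero.mp h').resolve_right hc0)
    have := hinj.bijective_of_nat_card_le (by rw [hV.card_sub, Nat.card_zmod])
    intro x hx
    obtain ⟨a, ha⟩ := this.2 ⟨x, hx⟩
    exact ⟨a, (congrArg Subtype.val ha).symm⟩
  obtain ⟨v₀, hv₀⟩ : ∃ v₀, v₀ ∉ C := by
    by_contra! h
    have hle : Nat.card V ≤ Nat.card C := Nat.card_le_card_of_injective
      (fun v => (⟨v, h v⟩ : C)) fun a b hab => congrArg Subtype.val hab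
    rw [hV.card_total, hV.card_sub, sq] at hle
    nlinarith [hp.two_le]
  choose d hd using fun σ => hsurj _ (hV.cyclo_quot σ v₀)
  exact ⟨v₀, c, d, hc, hc0, hv₀, hsurj, fun σ => by rw [← hd σ, add_sub_cancel]⟩

/-- If the cocycle vanishes on the kernel of the cyclotomic character the extension splits. -/
theorem exists_cocycle_ne_zero (hV : ExtCitation.IsAdmissibleExtension p V C) {v₀ c : V}
    {d : GalQ → ZMod p} (hc : c ∈ C) (hc0 : c ≠ 0) (hv₀ : v₀ ∉ C)
    (hd : ∀ σ : GalQ, σ • v₀ = (ExtCitation.cycloExp p σ : ZMod p) • v₀ + d σ • c)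
    (hns : ¬ ExtCitation.SplitsGlobally C) {g₀ : GalQ}
    (hg₀ : (ExtCitation.cycloExp p g₀ : ZMod p) ≠ 1) :
    ∃ σ, (ExtCitation.cycloExp p σ : ZMod p) = 1 ∧ d σ ≠ 0 := by
  by_contra! h
  apply hns
  set χ : GalQ → ZMod p := fun σ => (ExtCitation.cycloExp p σ : ZMod p)
  have hcfix : ∀ σ : GalQ, σ • c = c := fun σ => hV.fixed_sub σ c hc
  set t := d g₀ / (χ g₀ - 1)
  set v₁ := v₀ + t • c
  have hv₁ : ∀ σ : GalQ, σ • v₁ = χ σ • v₁ + (d σ + t - χ σ * t) • c := by
    intro σ
    simp only [v₁, χ, smul_add, smul_comm σ t c, hcfix, hd, sub_smul, add_smul, mul_smul]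
    abel
  have hg₁ : g₀ • v₁ = χ g₀ • v₁ := by
    have : d g₀ + t - χ g₀ * t = 0 := by
      have h0 : t * (χ g₀ - 1) = d g₀ := div_mul_cancel₀ _ (sub_ne_zero.mpr hg₀)
      linear_combination -h0
    rw [hv₁, this, zero_smul, add_zero]
  have hfix : ∀ σ : GalQ, σ • v₁ = χ σ • v₁ := by
    intro σ
    set e := d σ + t - χ σ * t
    -- the commutator with `g₀` lies in the kernel of the character, hence fixes `v₁`
    have hcomm : ∀ x : GalQ, χ x = 1 → x • v₁ = v₁ := fun x hx => by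
      rw [hv₁, hx, one_smul, h x hx]; simp
    have hχ : ∀ a b : GalQ, χ (a * b) = χ a * χ b := fun a b => by
      simp only [χ, ← ExtCitation.coe_cycloChar, map_mul, Units.val_mul]
    have hk : χ ((σ * g₀)⁻¹ * (g₀ * σ)) = 1 := by
      have h1 : χ (σ * g₀) = χ (g₀ * σ) := by rw [hχ, hχ, mul_comm]
      rw [hχ, ← h1, ← hχ, inv_mul_cancel]
      simp only [χ, ← ExtCitation.coe_cycloChar, map_one, Units.val_one]
    have h2 : (g₀ * σ) • v₁ = (σ * g₀) • v₁ := by
      conv_rhs => rw [← hcomm _ hk, smul_smul, mul_inv_cancel_left]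
    have hL : (g₀ * σ) • v₁ = (χ σ * χ g₀) • v₁ + e • c := by
      rw [mul_smul, hv₁ σ, smul_add, smul_comm g₀ (χ σ) v₁, hg₁, smul_comm g₀ e c, hcfix,
        ← mul_smul (χ σ) (χ g₀) v₁]
    have hR : (σ * g₀) • v₁ = (χ σ * χ g₀) • v₁ + (χ g₀ * e) • c := by
      rw [mul_smul, hg₁, smul_comm σ (χ g₀) v₁, hv₁ σ, smul_add, ← mul_smul (χ g₀) (χ σ) v₁,
        ← mul_smul (χ g₀) e c, mul_comm (χ g₀) (χ σ)]
    rw [hL, hR] at h2
    have he : e = 0 := by
      have h3 : (χ g₀ * e - e) • c = 0 := by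
        rw [sub_smul, sub_eq_zero]
        exact (add_left_cancel h2).symm
      have h4 := (smul_eq_zero.mp h3).resolve_right hc0
      have h5 : e * (χ g₀ - 1) = 0 := by linear_combination h4
      exact (mul_eq_zero.mp h5).resolve_right (sub_ne_zero.mpr hg₀)
    rw [hv₁ σ, show d σ + t - χ σ * t = e from rfl, he, zero_smul, add_zero]
  have hv₁C : v₁ ∉ C := fun hm => hv₀ (by simpa [v₁] using C.sub_mem hm (C.smul_mem t hc))
  refine ⟨Submodule.span (ZMod p) {v₁}, fun σ x hx => ?_, ?_⟩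
  · obtain ⟨a, rfl⟩ := Submodule.mem_span_singleton.mp hx
    rw [smul_comm, hfix, smul_smul]
    exact Submodule.smul_mem _ _ (Submodule.mem_span_singleton_self v₁)
  · refine ⟨Submodule.disjoint_def.mpr fun x hxC hx => ?_, ?_⟩
    · obtain ⟨a, rfl⟩ := Submodule.mem_span_singleton.mp hx
      by_contra hne
      have ha : a ≠ 0 := fun h0 => hne (by rw [h0, zero_smul])
      exact hv₁C (by simpa [smul_smul, ha] using C.smul_mem a⁻¹ hxC)
    · rw [codisjoint_iff, Submodule.eq_top_iff']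
      intro x
      let φ : ZMod p × ZMod p → V := fun z => z.1 • c + z.2 • v₁
      have hinj : Function.Injective φ := by
        rintro ⟨a, b⟩ ⟨a', b'⟩ hab
        have h1 : (b - b') • v₁ = (a' - a) • c := by
          simp only [φ] at hab
          rw [sub_smul, sub_smul]
          rw [sub_eq_sub_iff_add_eq_add, add_comm]
          exact hab
        have hb : b = b' := by
          by_contra hne
          have hbb : b - b' ≠ 0 := sub_ne_zero.mpr hne
          have : v₁ = ((b - b')⁻¹ * (a' - a)) • c := by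
            rw [← smul_smul, ← h1, smul_smul, inv_mul_cancel₀ hbb, one_smul]
          exact hv₁C (this ▸ C.smul_mem _ hc)
        rw [hb, sub_self, zero_smul, eq_comm, smul_eq_zero] at h1
        rw [hb, ← sub_eq_zero.mp (h1.resolve_right hc0)]
      haveI : Finite V :=
        Nat.finite_of_card_ne_zero (hV.card_total ▸ pow_ne_zero 2 (Fact.out : p.Prime).ne_zero)
      obtain ⟨⟨a, b⟩, rfl⟩ := (hinj.bijective_of_nat_card_le
        (by rw [hV.card_total, Nat.card_prod, Nat.card_zmod, sq])).2 x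
      exact Submodule.add_mem_sup (C.smul_mem a hc)
        (Submodule.smul_mem _ b (Submodule.mem_span_singleton_self v₁))

/-- A nonsplit admissible extension produces a `Setting`. -/
theorem exists_setting {p : ℕ} [Fact p.Prime] (h3 : 3 ≤ p) (V : Type) [AddCommGroup V]
    [Module (ZMod p) V]
    [DistribMulAction (AlgebraicClosure ℚ ≃ₐ[ℚ] AlgebraicClosure ℚ) V]
    [SMulCommClass (AlgebraicClosure ℚ ≃ₐ[ℚ] AlgebraicClosure ℚ) (ZMod p) V]
    (C : Submodule (ZMod p) V) (hV : ExtCitation.IsAdmissibleExtensionCts p V C)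
    (hns : ¬ ExtCitation.SplitsGlobally C) :
    ∃ (F : Type) (_ : Field F) (_ : NumberField F), IsGalois ℚ F ∧ Nonempty (Setting p F) := by
  classical
  have hp : p.Prime := Fact.out
  haveI : NeZero p := ⟨hp.ne_zero⟩
  obtain ⟨v₀, c, d, hc, hc0, hv₀, hgen, hd⟩ := exists_frame hV.toIsAdmissibleExtension
  obtain ⟨m₀, hm₀, hm₀p, hm₀1⟩ := Nat.exists_prime_gt_modEq_one (k := p) p hp.ne_zero
  obtain ⟨m₁, hm₁, hm₁m, hm₁1⟩ := Nat.exists_prime_gt_modEq_one (k := p) m₀ hp.ne_zero
  set m : Fin 2 → ℕ := ![m₀, m₁]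
  have hmprime : ∀ i, (m i).Prime := by intro i; fin_cases i <;> assumption
  have hmgt : ∀ i, p < m i := by
    intro i; fin_cases i
    · exact hm₀p
    · exact hm₀p.trans hm₁m
  have hmmod : ∀ i, m i % p = 1 := by
    intro i; fin_cases i
    · exact Eq.trans hm₀1 (Nat.mod_eq_of_lt hp.one_lt)
    · exact Eq.trans hm₁1 (Nat.mod_eq_of_lt hp.one_lt)
  haveI : ∀ i, Fact (m i).Prime := fun i => ⟨hmprime i⟩
  haveI : NeZero m₀ := ⟨hm₀.ne_zero⟩
  haveI : NeZero m₁ := ⟨hm₁.ne_zero⟩
  obtain ⟨F, hFn, hFf, hFN, ⟨z, hz, hzp⟩, ⟨z₀, hz₀, hz₀p⟩, ⟨z₁, hz₁, hz₁p⟩⟩ :=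
    exists_level hV.open_kernel (fun v => one_smul _ v) p m₀ m₁
  haveI := hFn
  haveI := hFf
  haveI : NumberField F := ⟨⟩
  haveI : IsGalois ℚ F := ⟨⟩
  set ζ : F := ⟨z, hz⟩
  have hζ : IsPrimitiveRoot ζ p := IsPrimitiveRoot.coe_submonoidClass_iff.mp hzp
  have hzm' : ∀ i, ∃ η : F, IsPrimitiveRoot η (m i) := by
    intro i
    fin_cases i
    · exact ⟨⟨z₀, hz₀⟩, IsPrimitiveRoot.coe_submonoidClass_iff.mp hz₀p⟩
    · exact ⟨⟨z₁, hz₁⟩, IsPrimitiveRoot.coe_submonoidClass_iff.mp hz₁p⟩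
  choose η hη using hzm'
  have hl' : ∀ i, ∃ l : Additive (ZMod (m i))ˣ →+ ZMod p, Function.Surjective l := fun i =>
    exists_unitsHom (hmmod i)
  choose l hlsurj using hl'
  haveI : ∀ i, NeZero (m i) := fun i => ⟨(hmprime i).ne_zero⟩
  set χ : Gal(F/ℚ) →* (ZMod p)ˣ := hζ.autToPow ℚ
  have hχσ : ∀ σ : GalQ, ((χ (restrict F σ) : (ZMod p)ˣ) : ZMod p) =
      (ExtCitation.cycloExp p σ : ZMod p) := by
    intro σ
    refine (autToPow_eq_iff hζ _ _).mpr (Subtype.ext ?_)
    rw [coe_restrict]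
    exact (apply_root_eq p (hzp.pow_eq_one) σ).trans (SubmonoidClass.coe_pow ζ _).symm
  have hsmul : ∀ {σ τ : GalQ}, restrict F σ = restrict F τ → ∀ v : V, σ • v = τ • v :=
    fun h v => smul_eq_of_restrict_eq F (fun σ hσ v => hFN σ hσ v) h v
  have hdinv : ∀ {σ τ : GalQ}, restrict F σ = restrict F τ → d σ = d τ := by
    intro σ τ h
    have h1 := hd σ
    rw [hsmul h, hd τ, ← hχσ, ← hχσ, h, add_right_inj, ← sub_eq_zero, ← sub_smul,
      smul_eq_zero] at h1
    exact (sub_eq_zero.mp (h1.resolve_right hc0)).symm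
  set lift : Gal(F/ℚ) → GalQ := Function.surjInv (restrict_surjective F)
  have hlift : ∀ g, restrict F (lift g) = g := Function.surjInv_eq (restrict_surjective F)
  set f : Gal(F/ℚ) → ZMod p := fun g => d (lift g)
  have hf : ∀ (σ : GalQ) (g : Gal(F/ℚ)), restrict F σ = g → f g = d σ := fun σ g h =>
    hdinv ((hlift g).trans h.symm)
  have hcfix : ∀ σ : GalQ, σ • c = c := fun σ => hV.fixed_sub σ c hc
  have hχsurj : Function.Surjective χ := by
    intro u
    obtain ⟨σ, hσ⟩ := exists_apply_root_eq_pow hzp u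
    refine ⟨restrict F σ, Units.ext ?_⟩
    rw [← ZMod.natCast_zmod_val (u : ZMod p)]
    refine (autToPow_eq_iff hζ _ _).mpr (Subtype.ext ?_)
    rw [coe_restrict]
    exact hσ.trans (SubmonoidClass.coe_pow ζ _).symm
  have hone : ∀ σ : GalQ, χ (restrict F σ) = 1 → (ExtCitation.cycloExp p σ : ZMod p) = 1 :=
    fun σ h => by rw [← hχσ, h, Units.val_one]
  -- `cycloExp = 1` moves nothing by more than the cocycle
  have hker : ∀ σ : GalQ, χ (restrict F σ) = 1 → σ • v₀ = v₀ + d σ • c := fun σ h => by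
    rw [hd, hone σ h, one_smul]
  refine ⟨F, inferInstance, inferInstance, inferInstance, ⟨{
    ζ := ζ
    hζ := hζ
    χ := χ
    χ_spec := fun g => (hζ.autToPow_spec ℚ g).symm
    χ_surj := hχsurj
    χ_frob := ?_
    f := f
    f_mul := ?_
    f_conj := ?_
    f_ne := ?_
    f_inertia := ?_
    m := m
    m_prime := hmprime
    m_inj := ?_
    m_mod := hmmod
    ℓ := l
    θ := fun i g => l i (Additive.ofMul ((hη i).autToPow ℚ g))
    θ_mul := fun i σ τ => by rw [map_mul, ofMul_mul, map_add]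
    θ_frob := ?_
    θ_inertia := ?_
    θ_inertia_at := ?_ }⟩⟩
  · intro Q q σ hQ hq hqQ hqp hσ
    haveI := hQ
    exact (autToPow_eq_iff hζ _ _).mpr (frob_apply_root Q hq hqQ hσ
      (natCast_notMem_of_coprime hQ.ne_top ((Nat.coprime_primes hq hp).mpr hqp) hqQ) hζ)
  · intro g₁ g₂ h₁ h₂
    rw [hf (lift g₁ * lift g₂) _ (by rw [map_mul, hlift, hlift])]
    have h12 : χ (restrict F (lift g₁ * lift g₂)) = 1 := by
      rw [map_mul, hlift, hlift, map_mul, h₁, h₂, one_mul]
    have key := hker _ h12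
    rw [mul_smul, hker (lift g₂) (by rw [hlift, h₂]), smul_add, hker (lift g₁) (by rw [hlift, h₁]),
      smul_comm, hcfix, add_assoc, add_right_inj, ← add_smul, ← sub_eq_zero, ← sub_smul,
      smul_eq_zero] at key
    exact (sub_eq_zero.mp (key.resolve_right hc0)).symm
  · intro g σ hσ
    rw [hf (lift g * lift σ * (lift g)⁻¹) _ (by simp [hlift])]
    have hconj : χ (restrict F (lift g * lift σ * (lift g)⁻¹)) = 1 := by
      simp [hlift, hσ]
    have key := hker _ hconj
    set a : ZMod p := (((χ g)⁻¹ : (ZMod p)ˣ) : ZMod p)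
    have hinv : (lift g)⁻¹ • v₀ = a • v₀ + d (lift g)⁻¹ • c := by
      rw [hd, ← hχσ, map_inv, hlift, map_inv]
    rw [mul_smul, mul_smul, hinv, smul_add, smul_comm (lift σ) a, hker (lift σ) (by rw [hlift, hσ]),
      smul_comm (lift σ) _ c, hcfix, smul_add, smul_add, smul_add, smul_comm (lift g) a v₀,
      smul_comm (lift g) a, smul_comm (lift g) _ c, smul_comm (lift g) _ c, hcfix,
      smul_smul] at key
    have hg : lift g • ((lift g)⁻¹ • v₀) = v₀ := smul_inv_smul _ _
    rw [hinv, smul_add, smul_comm (lift g) a, smul_comm (lift g) _ c, hcfix] at hg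
    have e : (a * d (lift σ)) • c = d (lift g * lift σ * (lift g)⁻¹) • c := by
      apply add_left_cancel (a := v₀)
      rw [← key]
      conv_lhs => rw [← hg]
      abel
    rw [← sub_eq_zero, ← sub_smul, smul_eq_zero] at e
    exact (sub_eq_zero.mp (e.resolve_right hc0)).symm
  · obtain ⟨g₀, hg₀⟩ := hχsurj (-1)
    have hg : (ExtCitation.cycloExp p (lift g₀) : ZMod p) ≠ 1 := by
      rw [← hχσ, hlift, hg₀, Units.val_neg, Units.val_one]
      intro h
      have h2 : ((2 : ℕ) : ZMod p) = 0 := by push_cast; linear_combination -h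
      have := (ZMod.natCast_eq_zero_iff _ _).mp h2
      have := Nat.le_of_dvd two_pos this
      omega
    obtain ⟨σ, h1, h2⟩ := exists_cocycle_ne_zero hV.toIsAdmissibleExtension hc hc0 hv₀ hd hns hg
    refine ⟨restrict F σ, Units.ext ?_, ?_⟩
    · rw [hχσ, h1, Units.val_one]
    · rwa [hf σ _ rfl]
  · intro Q hQ g hg h1
    haveI := hQ
    obtain ⟨q, hq, hqQ⟩ := exists_prime_mem Q
    obtain ⟨A, i, hA, hi, rfl⟩ := exists_inertia_lift F Q hq hqQ hg
    rw [hf i _ rfl]
    have key := hker i h1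
    suffices hfix : i • v₀ = v₀ by
      rw [hfix, left_eq_add, smul_eq_zero] at key
      exact key.resolve_right hc0
    rcases eq_or_ne q p with rfl | hqp
    · obtain ⟨C', hC', hcompl⟩ := hV.locally_split A hA
      obtain ⟨x, hx, y, hy, rfl⟩ := Submodule.mem_sup.mp
        ((hcompl.sup_eq_top ▸ Submodule.mem_top : v₀ ∈ C ⊔ C'))
      rw [smul_add, hV.fixed_sub i x hx]
      have hD := Galois.inertia_le_decomposition A hi
      have h2 : i • y - y ∈ C := by
        have := hV.cyclo_quot i y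
        rwa [hone i h1, one_smul] at this
      have h3 : i • y - y ∈ C' := C'.sub_mem (hC' i hD y hy) hy
      rw [sub_eq_zero.mp (Submodule.disjoint_def.mp hcompl.disjoint _ h2 h3)]
    · exact hV.unramified_outside q hq hqp A hA i hi v₀
  · intro i j hij
    fin_cases i <;> fin_cases j <;> simp_all [m]
  · intro i Q q σ hQ hq hqQ hσ hcop
    haveI := hQ
    refine congrArg (fun u => l i (Additive.ofMul u)) (Units.ext ?_)
    rw [ZMod.coe_unitOfCoprime]
    exact (autToPow_eq_iff (hη i) _ _).mpr (frob_apply_root Q hq hqQ hσ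
      (natCast_notMem_of_coprime hQ.ne_top hcop hqQ) (hη i))
  · intro i Q hQ hmQ g hg
    haveI := hQ
    obtain ⟨q, hq, hqQ⟩ := exists_prime_mem Q
    obtain ⟨A, σ, hA, hσ, rfl⟩ := exists_inertia_lift F Q hq hqQ hg
    have hqm : ¬ q ∣ m i := fun h => hmQ (Q.mem_of_dvd (Nat.cast_dvd_cast h) hqQ)
    have : (hη i).autToPow ℚ (restrict F σ) = 1 := by
      refine Units.ext ?_
      rw [Units.val_one, ← Nat.cast_one]
      refine (autToPow_eq_iff (hη i) _ _).mpr (Subtype.ext ?_)
      rw [coe_restrict, pow_one]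
      exact Galois.inertia_apply_rootOfUnity hA hq hσ hqm
        (by rw [← SubmonoidClass.coe_pow, (hη i).pow_eq_one, OneMemClass.coe_one])
    rw [this, ofMul_one, map_zero]
  · intro i Q hQ hmQ
    haveI := hQ
    obtain ⟨A, hA, hAQ⟩ := Galois.exists_levelPlaceIdeal_eq F (hmprime i) Q hmQ
    obtain ⟨w, hw⟩ := hlsurj i 1
    haveI : NeZero (m i ^ 1) := ⟨pow_ne_zero _ (hmprime i).ne_zero⟩
    have hηQ : IsPrimitiveRoot ((η i : F) : Qbar) (m i) :=
      IsPrimitiveRoot.coe_submonoidClass_iff.mpr (hη i)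
    have hη1 : IsPrimitiveRoot ((η i : F) : Qbar) (m i ^ 1) := by rwa [pow_one]
    set u : (ZMod (m i ^ 1))ˣ :=
      Units.map (ZMod.ringEquivCongr (pow_one (m i)).symm).toRingHom.toMonoidHom w.toMul
    obtain ⟨σ, hσ, hu⟩ := Galois.exists_inertia_modularCyclotomicCharacter_eq hA (hmprime i) 1
      hη1.card_rootsOfUnity u
    refine ⟨restrict F σ, hAQ ▸ restrict_mem_inertia F hσ, Units.ext ?_, ?_⟩
    · rw [Units.val_one, ← Nat.cast_one]
      refine (autToPow_eq_iff hζ _ _).mpr (Subtype.ext ?_)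
      rw [coe_restrict, pow_one]
      refine Galois.inertia_apply_rootOfUnity hA (hmprime i) hσ (fun h => ?_) hzp.pow_eq_one
      have := Nat.le_of_dvd hp.pos h
      have := hmgt i
      omega
    · have hat : (hη i).autToPow ℚ (restrict F σ) = w.toMul := by
        refine Units.ext ?_
        rw [← ZMod.natCast_zmod_val (w.toMul : ZMod (m i))]
        refine (autToPow_eq_iff (hη i) _ _).mpr (Subtype.ext ?_)
        rw [coe_restrict, SubmonoidClass.coe_pow]
        have h := modularCyclotomicCharacter.spec Qbar hη1.card_rootsOfUnity (σ : Qbar ≃+* Qbar)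
          (t := Units.ofPowEqOne _ (m i ^ 1) hη1.pow_eq_one (pow_ne_zero _ (hmprime i).ne_zero))
          ((mem_rootsOfUnity _ _).mpr (Units.pow_ofPowEqOne _ _))
        rw [hu] at h
        refine h.trans ?_
        simp only [u, Units.coe_map]
        congr 1
        exact ZMod.ringEquivCongr_val _ _
      rw [hat]
      simp [hw]

end Fermat.Agent.S14.Cross
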