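import Mathlib.FieldTheory.Galois.Basic
import Mathlib.NumberTheory.Cyclotomic.Basic
import Mathlib.NumberTheory.NumberField.Cyclotomic.Embeddings
import Mathlib.GroupTheory.Index
import Mathlib.Algebra.Field.ZMod
import Fermat.Agent.S14.Cross.Setting

/-!
# Subgroups and fixed fields attached to a `Setting`
-/

set_option autoImplicit false

noncomputable section

namespace Fermat.Agent.S14.Cross

open IntermediateField NumberField
open scoped NumberField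

variable {p : ℕ} [Fact p.Prime] {F : Type} [Field F] [NumberField F]

namespace Setting

variable (S : Setting p F)

/-- The subgroup fixing the `p`-th cyclotomic field. -/
def KG : Subgroup Gal(F/ℚ) := S.χ.ker

lemma mem_KG {σ : Gal(F/ℚ)} : σ ∈ S.KG ↔ S.χ σ = 1 := Iff.rfl

lemma θ_one (i : Fin 2) : S.θ i 1 = 0 := by
  have h := S.θ_mul i 1 1
  rw [mul_one] at h
  simpa using h

lemma θ_inv (i : Fin 2) (σ : Gal(F/ℚ)) : S.θ i σ⁻¹ = -S.θ i σ := by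
  have h := S.θ_mul i σ σ⁻¹
  rw [mul_inv_cancel, θ_one] at h
  linear_combination -h

lemma θ_conj (i : Fin 2) (g σ : Gal(F/ℚ)) : S.θ i (g * σ * g⁻¹) = S.θ i σ := by
  rw [S.θ_mul, S.θ_mul, θ_inv]; ring

lemma f_one : S.f 1 = 0 := by
  have h := S.f_mul 1 1 (map_one _) (map_one _)
  rw [mul_one] at h
  simpa using h

/-- The triple of characters on `KG`. -/
def triple : S.KG →* Multiplicative (ZMod p × ZMod p × ZMod p) where
  toFun σ := Multiplicative.ofAdd (S.f σ, S.θ 0 σ, S.θ 1 σ)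
  map_one' := by simp [S.f_one, S.θ_one]
  map_mul' σ τ := by
    rw [Subgroup.coe_mul, S.f_mul _ _ σ.2 τ.2, S.θ_mul, S.θ_mul]
    rfl

/-- Elements of `KG` on which `f + a * θ i` vanishes. -/
def lineGroup (i : Fin 2) (a : ZMod p) : Subgroup Gal(F/ℚ) where
  carrier := {σ | S.χ σ = 1 ∧ S.f σ + a * S.θ i σ = 0}
  one_mem' := ⟨map_one _, by simp [S.f_one, S.θ_one]⟩
  mul_mem' {σ τ} hσ hτ := ⟨by rw [map_mul, hσ.1, hτ.1, one_mul], by
    rw [S.f_mul σ τ hσ.1 hτ.1, S.θ_mul]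
    linear_combination hσ.2 + hτ.2⟩
  inv_mem' {σ} hσ := ⟨by rw [map_inv, hσ.1, inv_one], by
    have h := S.f_mul σ σ⁻¹ hσ.1 (by rw [map_inv, hσ.1, inv_one])
    rw [mul_inv_cancel, f_one] at h
    rw [θ_inv]
    linear_combination -hσ.2 - h⟩

/-- Elements of `KG` killed by the extension class. -/
def fGroup : Subgroup Gal(F/ℚ) := S.lineGroup 0 0

/-- Elements of `KG` killed by `θ i`. -/
def θGroup (i : Fin 2) : Subgroup Gal(F/ℚ) where
  carrier := {σ | S.χ σ = 1 ∧ S.θ i σ = 0}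
  one_mem' := ⟨map_one _, S.θ_one i⟩
  mul_mem' {σ τ} hσ hτ := ⟨by rw [map_mul, hσ.1, hτ.1, one_mul], by
    rw [S.θ_mul, hσ.2, hτ.2, add_zero]⟩
  inv_mem' {σ} hσ := ⟨by rw [map_inv, hσ.1, inv_one], by rw [θ_inv, hσ.2, neg_zero]⟩

lemma mem_lineGroup {i : Fin 2} {a : ZMod p} {σ : Gal(F/ℚ)} :
    σ ∈ S.lineGroup i a ↔ S.χ σ = 1 ∧ S.f σ + a * S.θ i σ = 0 := Iff.rfl

lemma mem_fGroup {σ : Gal(F/ℚ)} : σ ∈ S.fGroup ↔ S.χ σ = 1 ∧ S.f σ = 0 := by
  simp [fGroup, mem_lineGroup]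

lemma mem_θGroup {i : Fin 2} {σ : Gal(F/ℚ)} : σ ∈ S.θGroup i ↔ S.χ σ = 1 ∧ S.θ i σ = 0 := Iff.rfl

lemma lineGroup_le (i : Fin 2) (a : ZMod p) : S.lineGroup i a ≤ S.KG := fun _ h => h.1

lemma fGroup_le : S.fGroup ≤ S.KG := S.lineGroup_le 0 0

lemma conj_mem_lineGroup {i : Fin 2} {a : ZMod p} {g σ : Gal(F/ℚ)} (hg : g ∈ S.KG)
    (hσ : σ ∈ S.lineGroup i a) : g * σ * g⁻¹ ∈ S.lineGroup i a := by
  rw [mem_lineGroup] at hσ ⊢
  rw [mem_KG] at hg
  refine ⟨by simp [hσ.1], ?_⟩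
  rw [S.f_conj g σ hσ.1, θ_conj, hg, inv_one, Units.val_one, one_mul]
  exact hσ.2

lemma conj_mem_fGroup (g : Gal(F/ℚ)) {σ : Gal(F/ℚ)} (hσ : σ ∈ S.fGroup) :
    g * σ * g⁻¹ ∈ S.fGroup := by
  rw [mem_fGroup] at hσ ⊢
  exact ⟨by simp [hσ.1], by rw [S.f_conj g σ hσ.1, hσ.2, mul_zero]⟩

instance normal_fGroup : S.fGroup.Normal := ⟨fun _ h g => S.conj_mem_fGroup g h⟩

lemma exists_tau (i : Fin 2) : ∃ τ : Gal(F/ℚ),
    S.χ τ = 1 ∧ S.f τ = 0 ∧ S.θ i τ ≠ 0 ∧ ∀ j, j ≠ i → S.θ j τ = 0 := by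
  have hu : Ideal.span {(S.m i : 𝓞 F)} ≠ ⊤ := by
    intro h
    have h1 := (Ideal.span_singleton_eq_top.mp h).map (Algebra.norm ℤ)
    rw [show (S.m i : 𝓞 F) = algebraMap ℤ (𝓞 F) (S.m i : ℤ) by simp, Algebra.norm_algebraMap,
      RingOfIntegers.rank, Int.isUnit_iff_natAbs_eq, Int.natAbs_pow, Int.natAbs_natCast] at h1
    exact (S.m_prime i).ne_one ((pow_eq_one_iff_of_nonneg (Nat.zero_le _)
      Module.finrank_pos.ne').mp h1)
  obtain ⟨Q, hQ, hle⟩ := Ideal.exists_le_maximal _ hu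
  have hmQ : (S.m i : 𝓞 F) ∈ Q := hle (Ideal.mem_span_singleton_self _)
  obtain ⟨τ, hτ, hχ, hθ⟩ := S.θ_inertia_at i Q hQ hmQ
  refine ⟨τ, hχ, S.f_inertia Q hQ τ hτ hχ, hθ, fun j hj => S.θ_inertia j Q hQ (fun hmj => ?_) τ hτ⟩
  have hne : S.m j ≠ S.m i := fun h => hj (S.m_inj h)
  obtain ⟨a, b, hab⟩ := Int.isCoprime_iff_gcd_eq_one.mpr (show Int.gcd (S.m j) (S.m i) = 1 from
    (Nat.coprime_primes (S.m_prime j) (S.m_prime i)).mpr hne)
  refine hQ.ne_top ((Ideal.eq_top_iff_one Q).mpr ?_)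
  have := Q.add_mem (Q.mul_mem_left (a : 𝓞 F) hmj) (Q.mul_mem_left (b : 𝓞 F) hmQ)
  have hcast : ((a * (S.m j : ℤ) + b * (S.m i : ℤ) : ℤ) : 𝓞 F) = 1 := by rw [hab, Int.cast_one]
  push_cast at hcast
  rwa [hcast] at this

/-- The three characters are independent on `KG`. -/
lemma exists_triple (u v w : ZMod p) :
    ∃ σ : Gal(F/ℚ), S.χ σ = 1 ∧ S.f σ = u ∧ S.θ 0 σ = v ∧ S.θ 1 σ = w := by
  suffices h : Function.Surjective S.triple by
    obtain ⟨σ, hσ⟩ := h (Multiplicative.ofAdd (u, v, w))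
    have h' := congrArg Multiplicative.toAdd hσ
    simp only [triple, MonoidHom.coe_mk, OneHom.coe_mk, toAdd_ofAdd, Prod.mk.injEq] at h'
    exact ⟨σ, σ.2, h'.1, h'.2.1, h'.2.2⟩
  obtain ⟨σ₀, hσ₀, hf⟩ := S.f_ne
  obtain ⟨τ, hτ, hτf, hτ0, hτ1⟩ := S.exists_tau 0
  obtain ⟨τ', hτ', hτf', hτ0', hτ1'⟩ := S.exists_tau 1
  set R : AddSubgroup (ZMod p × ZMod p × ZMod p) :=
    AddSubgroup.map (MonoidHom.toAdditiveLeft S.triple) ⊤
  let R' : Submodule (ZMod p) (ZMod p × ZMod p × ZMod p) :=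
    AddSubgroup.toZModSubmodule p R
  have hmem : ∀ (σ : Gal(F/ℚ)) (hσ : S.χ σ = 1), (S.f σ, S.θ 0 σ, S.θ 1 σ) ∈ R' := fun σ hσ =>
    ⟨Additive.ofMul ⟨σ, hσ⟩, AddSubgroup.mem_top _, rfl⟩
  have e1 := hmem σ₀ hσ₀
  have e2 := hmem τ hτ
  have e3 := hmem τ' hτ'
  rw [hτf, hτ1 1 (by decide)] at e2
  rw [hτf', hτ1' 0 (by decide)] at e3
  have e2' : ((0 : ZMod p), (1 : ZMod p), (0 : ZMod p)) ∈ R' := by
    simpa [hτ0] using R'.smul_mem (S.θ 0 τ)⁻¹ e2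
  have e3' : ((0 : ZMod p), (0 : ZMod p), (1 : ZMod p)) ∈ R' := by
    simpa [hτ0'] using R'.smul_mem (S.θ 1 τ')⁻¹ e3
  have e1' : ((1 : ZMod p), (0 : ZMod p), (0 : ZMod p)) ∈ R' := by
    have := R'.smul_mem (S.f σ₀)⁻¹ (R'.sub_mem (R'.sub_mem e1 (R'.smul_mem (S.θ 0 σ₀) e2'))
      (R'.smul_mem (S.θ 1 σ₀) e3'))
    simpa [hf, Prod.mk_zero_zero] using this
  intro y
  have hy : Multiplicative.toAdd y ∈ R' := by
    have := R'.add_mem (R'.add_mem (R'.smul_mem y.toAdd.1 e1') (R'.smul_mem y.toAdd.2.1 e2'))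
      (R'.smul_mem y.toAdd.2.2 e3')
    simpa using this
  obtain ⟨x, -, hx⟩ := hy
  exact ⟨Additive.toMul x, Multiplicative.toAdd.injective hx⟩

/-- Counting the common zeros of linear forms in the three characters. -/
lemma card_mul_card {A : Type*} [AddCommGroup A]
    (l : (ZMod p × ZMod p × ZMod p) →+ A) (hl : Function.Surjective l) (H : Subgroup Gal(F/ℚ))
    (hH : ∀ σ, σ ∈ H ↔ S.χ σ = 1 ∧ l (S.f σ, S.θ 0 σ, S.θ 1 σ) = 0) :
    Nat.card H * Nat.card A = Nat.card S.KG := by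
  have htri : Function.Surjective S.triple := fun y => by
    obtain ⟨σ, h, h1, h2, h3⟩ := S.exists_triple y.toAdd.1 y.toAdd.2.1 y.toAdd.2.2
    exact ⟨⟨σ, h⟩, by simp [triple, h1, h2, h3]⟩
  set Φ : S.KG →* Multiplicative A := (AddMonoidHom.toMultiplicative l).comp S.triple
  have hΦ : Function.Surjective Φ := (Multiplicative.ofAdd.surjective.comp
    (hl.comp Multiplicative.toAdd.surjective)).comp htri
  have he : Nat.card Φ.ker = Nat.card H := Nat.card_congr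
    { toFun := fun σ => ⟨σ.1.1, (hH _).mpr ⟨σ.1.2, congrArg Multiplicative.toAdd σ.2⟩⟩
      invFun := fun σ => ⟨⟨σ.1, ((hH _).mp σ.2).1⟩,
        Multiplicative.toAdd.injective ((hH _).mp σ.2).2⟩
      left_inv := fun σ => rfl
      right_inv := fun σ => rfl }
  have hi : Φ.ker.index = Nat.card (Multiplicative A) := by
    rw [Subgroup.index_ker, MonoidHom.range_eq_top.mpr hΦ, Subgroup.card_top]
  rw [← he, show Nat.card A = Nat.card (Multiplicative A) from rfl, ← hi, Subgroup.card_mul_index]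

lemma card_fGroup_mul : Nat.card S.fGroup * p = Nat.card S.KG := by
  have h := S.card_mul_card (AddMonoidHom.fst _ _) (fun x => ⟨(x, 0, 0), rfl⟩) S.fGroup
    (fun σ => by simp [mem_fGroup])
  rwa [Nat.card_zmod] at h

lemma card_θGroup_mul : Nat.card (S.θGroup 0) * p = Nat.card S.KG := by
  have h := S.card_mul_card ((AddMonoidHom.fst _ _).comp (AddMonoidHom.snd _ _))
    (fun x => ⟨(0, x, 0), rfl⟩) (S.θGroup 0) (fun σ => by simp [mem_θGroup])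
  rwa [Nat.card_zmod] at h

lemma card_lineGroup_mul (i : Fin 2) (a : ZMod p) :
    Nat.card (S.lineGroup i a) * p = Nat.card S.KG := by
  obtain ⟨l, hl, hl'⟩ : ∃ l : (ZMod p × ZMod p × ZMod p) →+ ZMod p, Function.Surjective l ∧
      ∀ σ, l (S.f σ, S.θ 0 σ, S.θ 1 σ) = S.f σ + a * S.θ i σ := by
    fin_cases i
    · exact ⟨AddMonoidHom.fst _ _ + (AddMonoidHom.mulLeft a).comp
        ((AddMonoidHom.fst _ _).comp (AddMonoidHom.snd _ _)), fun x => ⟨(x, 0, 0), by simp⟩,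
        fun σ => rfl⟩
    · exact ⟨AddMonoidHom.fst _ _ + (AddMonoidHom.mulLeft a).comp
        ((AddMonoidHom.snd _ _).comp (AddMonoidHom.snd _ _)), fun x => ⟨(x, 0, 0), by simp⟩,
        fun σ => rfl⟩
  have h := S.card_mul_card l hl (S.lineGroup i a) (fun σ => by rw [hl', mem_lineGroup])
  rwa [Nat.card_zmod] at h

lemma card_line_inf_f_mul (i : Fin 2) {a : ZMod p} (ha : a ≠ 0) :
    Nat.card ↑(S.lineGroup i a ⊓ S.fGroup) * p * p = Nat.card S.KG := by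
  obtain ⟨l, hl, hl'⟩ : ∃ l : (ZMod p × ZMod p × ZMod p) →+ ZMod p × ZMod p,
      Function.Surjective l ∧
      ∀ σ, l (S.f σ, S.θ 0 σ, S.θ 1 σ) = (S.f σ + a * S.θ i σ, S.f σ) := by
    fin_cases i
    · exact ⟨(AddMonoidHom.fst _ _ + (AddMonoidHom.mulLeft a).comp
        ((AddMonoidHom.fst _ _).comp (AddMonoidHom.snd _ _))).prod (AddMonoidHom.fst _ _),
        fun x => ⟨(x.2, a⁻¹ * (x.1 - x.2), 0), Prod.ext (by
          simp [mul_inv_cancel_left₀ ha]) rfl⟩, fun σ => rfl⟩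
    · exact ⟨(AddMonoidHom.fst _ _ + (AddMonoidHom.mulLeft a).comp
        ((AddMonoidHom.snd _ _).comp (AddMonoidHom.snd _ _))).prod (AddMonoidHom.fst _ _),
        fun x => ⟨(x.2, 0, a⁻¹ * (x.1 - x.2)), Prod.ext (by
          simp [mul_inv_cancel_left₀ ha]) rfl⟩, fun σ => rfl⟩
  have h := S.card_mul_card l hl (S.lineGroup i a ⊓ S.fGroup) (fun σ => by
    rw [hl', Subgroup.mem_inf, mem_lineGroup, mem_fGroup, Prod.mk_eq_zero]
    tauto)
  rwa [Nat.card_prod, Nat.card_zmod, ← mul_assoc] at h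

lemma card_pair_mul (a b : ZMod p) (ha : a ≠ 0) :
    Nat.card ↑(S.lineGroup 0 a ⊓ S.lineGroup 1 b) * p * p = Nat.card S.KG ∧
    (b ≠ 0 → Nat.card ↑(S.lineGroup 0 a ⊓ S.lineGroup 1 b ⊓ S.fGroup) * p * p * p =
      Nat.card S.KG) := by
  constructor
  · let l : (ZMod p × ZMod p × ZMod p) →+ ZMod p × ZMod p :=
      (AddMonoidHom.fst _ _ + (AddMonoidHom.mulLeft a).comp
        ((AddMonoidHom.fst _ _).comp (AddMonoidHom.snd _ _))).prod
      (AddMonoidHom.fst _ _ + (AddMonoidHom.mulLeft b).comp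
        ((AddMonoidHom.snd _ _).comp (AddMonoidHom.snd _ _)))
    have hl : Function.Surjective l := fun x =>
      ⟨(x.2, a⁻¹ * (x.1 - x.2), 0), Prod.ext (by simp [l, mul_inv_cancel_left₀ ha]) (by simp [l])⟩
    have h := S.card_mul_card l hl (S.lineGroup 0 a ⊓ S.lineGroup 1 b) (fun σ => by
      simp only [Subgroup.mem_inf, mem_lineGroup, l, AddMonoidHom.prod_apply, Prod.mk_eq_zero]
      change _ ↔ S.χ σ = 1 ∧ (S.f σ + a * S.θ 0 σ = 0 ∧ S.f σ + b * S.θ 1 σ = 0)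
      tauto)
    rwa [Nat.card_prod, Nat.card_zmod, ← mul_assoc] at h
  · intro hb
    let l : (ZMod p × ZMod p × ZMod p) →+ ZMod p × ZMod p × ZMod p :=
      (AddMonoidHom.fst _ _ + (AddMonoidHom.mulLeft a).comp
        ((AddMonoidHom.fst _ _).comp (AddMonoidHom.snd _ _))).prod
      ((AddMonoidHom.fst _ _ + (AddMonoidHom.mulLeft b).comp
        ((AddMonoidHom.snd _ _).comp (AddMonoidHom.snd _ _))).prod (AddMonoidHom.fst _ _))
    have hl : Function.Surjective l := fun x =>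
      ⟨(x.2.2, a⁻¹ * (x.1 - x.2.2), b⁻¹ * (x.2.1 - x.2.2)),
        Prod.ext (by simp [l, mul_inv_cancel_left₀ ha])
          (Prod.ext (by simp [l, mul_inv_cancel_left₀ hb]) (by simp [l]))⟩
    have h := S.card_mul_card l hl (S.lineGroup 0 a ⊓ S.lineGroup 1 b ⊓ S.fGroup) (fun σ => by
      simp only [Subgroup.mem_inf, mem_lineGroup, mem_fGroup, l, AddMonoidHom.prod_apply,
        Prod.mk_eq_zero]
      change _ ↔ S.χ σ = 1 ∧ (S.f σ + a * S.θ 0 σ = 0 ∧ S.f σ + b * S.θ 1 σ = 0 ∧ S.f σ = 0)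
      tauto)
    rwa [Nat.card_prod, Nat.card_prod, Nat.card_zmod, ← mul_assoc, ← mul_assoc] at h

end Setting

end Fermat.Agent.S14.Cross
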