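import Fermat.Prelude.Def_ClassGroup_GaloisAction
import Fermat.Agent.S14.Genus
import Fermat.Agent.S14.Cross.Levels
import Fermat.Agent.S14.Cross.Transfer

/-!
# The fields inside a `Setting`: the cyclotomic field and unramified degree `p` extensions of it
-/

set_option autoImplicit false

noncomputable section

namespace Fermat.Agent.S14.Cross

open IntermediateField NumberField IsDedekindDomain
open scoped NumberField nonZeroDivisors Pointwise

variable {F : Type} [Field F] [NumberField F]

section Tower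

variable {H H' : Subgroup Gal(F/ℚ)}

/-- The algebra structure between fixed fields. -/
abbrev algLe (h : H ≤ H') : Algebra (fixedField H') (fixedField H) :=
  (IntermediateField.inclusion (fixedField_le h)).toRingHom.toAlgebra

lemma isScalarTower_le (h : H ≤ H') :
    letI := algLe h
    IsScalarTower (fixedField H') (fixedField H) F := by
  let := algLe h
  exact IsScalarTower.of_algebraMap_eq fun _ => rfl

variable [IsGalois ℚ F]

lemma finrank_fixedField_mul (H : Subgroup Gal(F/ℚ)) :
    Module.finrank ℚ (fixedField H) * Nat.card H = Module.finrank ℚ F := by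
  rw [← finrank_fixedField_eq_card H, Module.finrank_mul_finrank]

lemma finrank_le_mul (h : H ≤ H') :
    letI := algLe h
    Module.finrank (fixedField H') (fixedField H) * Nat.card H = Nat.card H' := by
  let := algLe h
  have : IsScalarTower ℚ (fixedField H') (fixedField H) :=
    IsScalarTower.of_algebraMap_eq fun _ => rfl
  have h1 := finrank_fixedField_mul H
  rw [← Module.finrank_mul_finrank ℚ (fixedField H') (fixedField H), ← finrank_fixedField_mul H',
    mul_assoc] at h1
  exact Nat.eq_of_mul_eq_mul_left Module.finrank_pos h1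

/-- A normal inclusion gives a Galois extension, whose group is the image of the larger one. -/
lemma galois_le (h : H ≤ H') (hn : ∀ g ∈ H', ∀ σ ∈ H, g * σ * g⁻¹ ∈ H) :
    letI := algLe h
    IsGalois (fixedField H') (fixedField H) ∧
      ∀ e : fixedField H ≃ₐ[fixedField H'] fixedField H,
        ∃ g ∈ H', ∀ x : fixedField H, ((e x : fixedField H) : F) = g (x : F) := by
  let := algLe h
  have : IsScalarTower ℚ (fixedField H') (fixedField H) :=
    IsScalarTower.of_algebraMap_eq fun _ => rfl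
  have : FiniteDimensional (fixedField H') (fixedField H) :=
    FiniteDimensional.right ℚ (fixedField H') (fixedField H)
  have hmem : ∀ g : H', ∀ x : fixedField H, (g : Gal(F/ℚ)) (x : F) ∈ fixedField H := by
    intro g x
    rw [mem_fixedField_iff]
    intro σ hσ
    have hc := hn _ (inv_mem g.2) σ hσ
    rw [inv_inv] at hc
    have hx := (mem_fixedField_iff _ _).mp x.2 _ hc
    calc σ ((g : Gal(F/ℚ)) (x : F))
        = ((g : Gal(F/ℚ)) * (((g : Gal(F/ℚ)))⁻¹ * σ * (g : Gal(F/ℚ)))) (x : F) := by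
          rw [← mul_assoc, ← mul_assoc, mul_inv_cancel, one_mul]; rfl
      _ = _ := by rw [AlgEquiv.mul_apply, hx]
  let res : H' → (fixedField H →ₐ[fixedField H'] fixedField H) := fun g =>
    { toFun := fun x => ⟨(g : Gal(F/ℚ)) (x : F), hmem g x⟩
      map_one' := Subtype.ext (map_one _)
      map_mul' := fun x y => Subtype.ext (map_mul _ _ _)
      map_zero' := Subtype.ext (map_zero _)
      map_add' := fun x y => Subtype.ext (map_add _ _ _)
      commutes' := fun a => Subtype.ext ((mem_fixedField_iff _ _).mp a.2 _ g.2) }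
  let ρ : H' →* (fixedField H ≃ₐ[fixedField H'] fixedField H) :=
    { toFun := fun g => AlgEquiv.ofBijective (res g) (Algebra.IsAlgebraic.algHom_bijective _)
      map_one' := AlgEquiv.ext fun x => Subtype.ext rfl
      map_mul' := fun g g' => AlgEquiv.ext fun x => Subtype.ext rfl }
  have hρ : ∀ (g : H') (x : fixedField H), ((ρ g x : fixedField H) : F) = (g : Gal(F/ℚ)) (x : F) :=
    fun g x => rfl
  have hker : Nat.card ρ.ker = Nat.card H := by
    refine Nat.card_congr
      { toFun := fun g => ⟨g.1.1, ?_⟩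
        invFun := fun g => ⟨⟨g.1, h g.2⟩, ?_⟩
        left_inv := fun g => rfl
        right_inv := fun g => rfl }
    · have hfix : (g.1.1 : Gal(F/ℚ)) ∈ (fixedField H).fixingSubgroup := by
        rw [IntermediateField.mem_fixingSubgroup_iff]
        intro x hx
        rw [← hρ g.1 ⟨x, hx⟩, MonoidHom.mem_ker.mp g.2]
        rfl
      rwa [fixingSubgroup_fixedField] at hfix
    · rw [MonoidHom.mem_ker]
      exact AlgEquiv.ext fun x => Subtype.ext ((mem_fixedField_iff _ _).mp x.2 _ g.2)
  have hmul : Nat.card ρ.range * Nat.card H = Nat.card H' := by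
    rw [← hker, ← Subgroup.index_ker, mul_comm, Subgroup.card_mul_index]
  have hrange : Nat.card ρ.range = Module.finrank (fixedField H') (fixedField H) :=
    Nat.eq_of_mul_eq_mul_right Nat.card_pos (hmul.trans (finrank_le_mul h).symm)
  have haut : Nat.card (fixedField H ≃ₐ[fixedField H'] fixedField H) ≤
      Module.finrank (fixedField H') (fixedField H) := by
    rw [Nat.card_eq_fintype_card]
    exact AlgEquiv.card_le
  have hle := Nat.card_le_card_of_injective (Subtype.val : ρ.range → _) Subtype.val_injective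
  have heq : Nat.card (fixedField H ≃ₐ[fixedField H'] fixedField H) =
      Module.finrank (fixedField H') (fixedField H) := le_antisymm haut (hrange ▸ hle)
  refine ⟨IsGalois.of_card_aut_eq_finrank _ _ heq, fun e => ?_⟩
  have htop : ρ.range = ⊤ := Subgroup.eq_top_of_card_eq _ (hrange.trans heq.symm)
  obtain ⟨g, hg⟩ : e ∈ ρ.range := htop ▸ Subgroup.mem_top e
  exact ⟨g, g.2, fun x => by rw [← hg, hρ]⟩

end Tower

namespace Setting

variable {p : ℕ} [Fact p.Prime] (S : Setting p F)

/-- The `p`-th cyclotomic field inside `F`. -/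
abbrev K : IntermediateField ℚ F := fixedField S.KG

lemma χ_eq_one_iff (σ : Gal(F/ℚ)) : S.χ σ = 1 ↔ σ S.ζ = S.ζ := by
  have : NeZero p := ⟨(Fact.out : p.Prime).ne_zero⟩
  rw [S.χ_spec]
  constructor
  · intro h
    rw [h, Units.val_one, ZMod.val_one, pow_one]
  · intro h
    refine Units.ext (ZMod.val_injective p ?_)
    rw [Units.val_one, ZMod.val_one]
    exact S.hζ.pow_inj (ZMod.val_lt _) (Fact.out : p.Prime).one_lt (h.trans (pow_one _).symm)

variable [IsGalois ℚ F]

lemma K_eq_adjoin : S.K = IntermediateField.adjoin ℚ {S.ζ} := by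
  rw [K, ← IsGalois.fixedField_fixingSubgroup (IntermediateField.adjoin ℚ {S.ζ})]
  congr 1
  refine le_antisymm ?_ fun σ hσ => ?_
  · rw [← IntermediateField.le_iff_le, IntermediateField.adjoin_simple_le_iff, mem_fixedField_iff]
    exact fun σ hσ => (S.χ_eq_one_iff σ).mp hσ
  · exact (S.χ_eq_one_iff σ).mpr
      ((IntermediateField.mem_fixingSubgroup_iff _ _).mp hσ _ (mem_adjoin_simple_self ℚ S.ζ))

instance isCyclotomic_K : IsCyclotomicExtension {p} ℚ S.K := by
  have : NeZero p := ⟨(Fact.out : p.Prime).ne_zero⟩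
  rw [S.K_eq_adjoin]
  exact S.hζ.intermediateField_adjoin_isCyclotomicExtension ℚ

lemma ζ_mem : S.ζ ∈ S.K := by rw [S.K_eq_adjoin]; exact mem_adjoin_simple_self ℚ S.ζ

omit [IsGalois ℚ F] in
/-- The valued prime of `K` below a prime of `F`. -/
abbrev belowK (Q : HeightOneSpectrum (𝓞 F)) : HeightOneSpectrum (𝓞 S.K) := fixedUnder S.KG Q

open JacobiSumStickelberger in
lemma algebraMap_clRingAction (g : Gal(F/ℚ)) (x : 𝓞 S.K) :
    algebraMap (𝓞 S.K) (𝓞 F) (clRingAction p S.K (S.χ g) x) = g • algebraMap (𝓞 S.K) (𝓞 F) x := by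
  have : NeZero p := ⟨(Fact.out : p.Prime).ne_zero⟩
  apply RingOfIntegers.ext
  show ((clRingAction p S.K (S.χ g) x : S.K) : F) = g ((x : S.K) : F)
  set e := (cycloGalEquiv p S.K).symm (S.χ g)
  have he : ((clRingAction p S.K (S.χ g) x : 𝓞 S.K) : S.K) = e (x : S.K) :=
    algebraMap_galRestrict_apply ℤ e x
  rw [he]
  let h1 : S.K →ₐ[ℚ] F := S.K.val.comp e.toAlgHom
  let h2 : S.K →ₐ[ℚ] F := g.toAlgHom.comp S.K.val
  suffices h1 = h2 from DFunLike.congr_fun this _
  have hz : IsPrimitiveRoot (⟨S.ζ, S.ζ_mem⟩ : S.K) p :=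
    IsPrimitiveRoot.of_map_of_injective (f := S.K.val) S.hζ Subtype.val_injective
  refine (hz.powerBasis ℚ).algHom_ext ?_
  rw [IsPrimitiveRoot.powerBasis_gen]
  show ((e ⟨S.ζ, S.ζ_mem⟩ : S.K) : F) = g S.ζ
  rw [IsCyclotomicExtension.Rat.galEquivZMod_apply_of_pow_eq p S.K e hz.pow_eq_one, S.χ_spec,
    SubmonoidClass.coe_pow]
  exact congrArg (fun u : (ZMod p)ˣ => S.ζ ^ ((u : (ZMod p)ˣ) : ZMod p).val)
    ((cycloGalEquiv p S.K).apply_symm_apply (S.χ g))

/-- The class of a conjugate prime. -/
lemma mk0_belowK_conj (g : Gal(F/ℚ)) (Q : HeightOneSpectrum (𝓞 F)) :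
    ClassGroup.mk0 (primeIdeal (S.belowK (conjPrime g Q))) =
      ClassGroup.mulEquiv (JacobiSumStickelberger.clRingAction p S.K (S.χ g))
        (ClassGroup.mk0 (primeIdeal (S.belowK Q))) := by
  rw [ClassGroup.mulEquiv_mk0]
  congr 1
  refine Subtype.ext ?_
  rw [Ideal.coe_mapNonZero]
  ext x
  set r := JacobiSumStickelberger.clRingAction p S.K (S.χ g)
  show algebraMap (𝓞 S.K) (𝓞 F) x ∈ g • Q.asIdeal ↔ x ∈ Ideal.map (r : 𝓞 S.K →+* 𝓞 S.K) _
  obtain ⟨y, rfl⟩ := r.surjective x
  rw [S.algebraMap_clRingAction, Ideal.smul_mem_pointwise_smul_iff]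
  constructor
  · exact fun hy => Ideal.mem_map_of_mem _ hy
  · intro hy
    obtain ⟨z, hz, hzy⟩ := (Ideal.mem_map_iff_of_surjective _ r.surjective).mp hy
    rw [← r.injective hzy]
    exact hz

lemma isTotallyComplex_K (hp : 2 < p) : IsTotallyComplex S.K :=
  haveI : NeZero p := ⟨(Fact.out : p.Prime).ne_zero⟩
  IsCyclotomicExtension.Rat.isTotallyComplex S.K hp

/-- The ambiguous class inequality: a class character killing the split primes. -/
lemma exists_psi (hp : 2 < p) : ∃ ψ : ClassGroup (𝓞 S.K) →* Multiplicative (ZMod p), ψ ≠ 1 ∧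
    ∀ Q : HeightOneSpectrum (𝓞 F), IsGood Q → frob Q ∈ S.fGroup →
      ψ (ClassGroup.mk0 (primeIdeal (S.belowK Q))) = 1 := by
  let := algLe S.fGroup_le
  have := isScalarTower_le S.fGroup_le
  have := S.isTotallyComplex_K hp
  obtain ⟨hgal, -⟩ := galois_le S.fGroup_le fun g _ σ hσ => S.conj_mem_fGroup g hσ
  have := hgal
  have hdeg : Module.finrank (fixedField S.KG) (fixedField S.fGroup) = p :=
    Nat.eq_of_mul_eq_mul_right Nat.card_pos
      ((finrank_le_mul S.fGroup_le).trans (by rw [mul_comm]; exact S.card_fGroup_mul.symm))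
  have hunr : ∀ P : Ideal (𝓞 (fixedField S.fGroup)), P.IsPrime → P ≠ ⊥ →
      ¬ P ^ 2 ∣ (P.under (𝓞 S.K)).map (algebraMap (𝓞 S.K) (𝓞 (fixedField S.fGroup))) := by
    refine not_sq_dvd_of_inertia (F := F) fun Q hQ σ hσ hfix x => ?_
    have hχ : S.χ σ = 1 := by
      have : σ ∈ (fixedField S.KG).fixingSubgroup := by
        rw [IntermediateField.mem_fixingSubgroup_iff]
        exact fun y hy => hfix ⟨y, hy⟩
      rwa [fixingSubgroup_fixedField] at this
    exact (mem_fixedField_iff _ _).mp x.2 σ (S.mem_fGroup.mpr ⟨hχ, S.f_inertia Q hQ σ hσ hχ⟩)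
  obtain ⟨ψ, hψ, hkill⟩ := Genus.exists_classGroupHom_kills_norms p S.K (fixedField S.fGroup)
    (by omega) hdeg hunr
  refine ⟨ψ, hψ, fun Q hQ hf => ?_⟩
  have e1 := absNorm_fixedUnder hQ (S.fGroup_le hf)
  have e2 := absNorm_fixedUnder hQ hf
  have hrel := relNorm_under_eq (M := S.K) (M' := fixedField S.fGroup) Q
    (show Nat.Prime (Ideal.absNorm (fixedUnder S.KG Q).asIdeal) by
      rw [e1]; exact residueChar_prime Q)
    (show Ideal.absNorm (fixedUnder S.fGroup Q).asIdeal =
      Ideal.absNorm (fixedUnder S.KG Q).asIdeal by rw [e1, e2])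
  have := hkill (Q.asIdeal.under (𝓞 (fixedField S.fGroup)))
    (by rw [hrel]; exact (primeIdeal (S.belowK Q)).2)
  exact (congrArg (fun I => ψ (ClassGroup.mk0 I))
    (Subtype.ext hrel.symm : primeIdeal (S.belowK Q) =
      (⟨Ideal.relNorm (𝓞 S.K) (Q.asIdeal.under (𝓞 (fixedField S.fGroup))), _⟩ :
        (Ideal (𝓞 S.K))⁰))).trans this

end Setting

end Fermat.Agent.S14.Cross
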