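import Mathlib.RingTheory.DedekindDomain.Factorization
import Mathlib.RingTheory.Ideal.Norm.AbsNorm
import Mathlib.RingTheory.ClassGroup.Basic
import Mathlib.NumberTheory.NumberField.Basic
import Mathlib.GroupTheory.SpecificGroups.Cyclic

/-!
# A character of the class group from a character modulo a prime `m`

If a character of `(ℤ/m)ˣ` kills the norms of the algebraic integers prime to `m`, then
`I ↦ ℓ(N I mod m)` descends to the class group.
-/

set_option autoImplicit false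

noncomputable section

namespace Fermat.Agent.S14.Cross

open NumberField
open scoped nonZeroDivisors

variable {E : Type} [Field E] [NumberField E] {A : Type} [AddCommGroup A] {m : ℕ}

/-- Every class contains an integral ideal of norm prime to `m`. -/
lemma exists_mk0_eq_coprime (hm : m.Prime) (C : ClassGroup (𝓞 E)) :
    ∃ I : (Ideal (𝓞 E))⁰, ClassGroup.mk0 I = C ∧
      Nat.Coprime (Ideal.absNorm (I : Ideal (𝓞 E))) m := by
  obtain ⟨a, ha⟩ := ClassGroup.mk0_surjective C⁻¹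
  have ha0 : (a : Ideal (𝓞 E)) ≠ 0 := nonZeroDivisors.coe_ne_zero a
  set M : Ideal (𝓞 E) := Ideal.span {(m : 𝓞 E)}
  have hM : M ≠ 0 := mt Ideal.span_singleton_eq_bot.mp (Nat.cast_ne_zero.mpr hm.ne_zero)
  obtain ⟨x, hx⟩ := IsDedekindDomain.exists_sup_span_eq
    (Ideal.mul_le_right : M * (a : Ideal (𝓞 E)) ≤ a) (mul_ne_zero hM ha0)
  obtain ⟨b, hb⟩ : (a : Ideal (𝓞 E)) ∣ Ideal.span {x} :=
    Ideal.dvd_iff_le.mpr (le_of_le_of_eq le_sup_right hx)
  have hsum : M ⊔ b = ⊤ := by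
    have h : (a : Ideal (𝓞 E)) * (M ⊔ b) = (a : Ideal (𝓞 E)) * ⊤ := by
      rw [Ideal.mul_sup, ← hb, mul_comm _ M, hx, ← Ideal.one_eq_top, mul_one]
    exact mul_left_cancel₀ ha0 h
  have hb0 : b ≠ 0 := by
    rintro rfl
    rw [Submodule.zero_eq_bot, sup_bot_eq, Ideal.span_singleton_eq_top] at hsum
    have h1 := hsum.map (Algebra.norm ℤ)
    rw [show (m : 𝓞 E) = algebraMap ℤ (𝓞 E) (m : ℤ) by simp, Algebra.norm_algebraMap,
      RingOfIntegers.rank, Int.isUnit_iff_natAbs_eq, Int.natAbs_pow, Int.natAbs_natCast] at h1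
    exact hm.ne_one ((pow_eq_one_iff_of_nonneg (Nat.zero_le _)
      Module.finrank_pos.ne').mp h1)
  refine ⟨⟨b, mem_nonZeroDivisors_of_ne_zero hb0⟩, ?_, ?_⟩
  · rw [← inv_inv C, ← ha, eq_inv_iff_mul_eq_one, mul_comm, ← map_mul]
    refine (ClassGroup.mk0_eq_one_iff (mul_mem a.2 (mem_nonZeroDivisors_of_ne_zero hb0))).mpr ?_
    exact ⟨⟨x, hb.symm⟩⟩
  · rw [Nat.coprime_comm, hm.coprime_iff_not_dvd]
    intro hdvd
    have hfin : Finite (𝓞 E ⧸ b) := Nat.finite_of_card_ne_zero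
      (show Nat.card (𝓞 E ⧸ b) ≠ 0 from mt Ideal.absNorm_eq_zero_iff.mp hb0)
    have : Fact m.Prime := ⟨hm⟩
    obtain ⟨y, hy⟩ := exists_prime_addOrderOf_dvd_card' (G := 𝓞 E ⧸ b) m hdvd
    obtain ⟨w, hw, z, hz, hwz⟩ := Submodule.mem_sup.mp ((Ideal.eq_top_iff_one _).mp hsum)
    obtain ⟨u, rfl⟩ := Ideal.mem_span_singleton'.mp hw
    have h1 : Ideal.Quotient.mk b (u * (m : 𝓞 E)) = 1 := by
      have := congrArg (Ideal.Quotient.mk b) hwz
      rwa [map_add, map_one, Ideal.Quotient.eq_zero_iff_mem.mpr hz, add_zero] at this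
    have hy0 : (m : 𝓞 E ⧸ b) * y = 0 := by
      rw [← nsmul_eq_mul, ← hy, addOrderOf_nsmul_eq_zero]
    have : y = 0 := by
      rw [← one_mul y, ← h1, map_mul, map_natCast, mul_assoc, hy0, mul_zero]
    rw [this, addOrderOf_zero] at hy
    exact hm.ne_one hy.symm

/-- A character modulo `m` evaluated at the norm of an ideal. -/
def normChar (ℓ : Additive (ZMod m)ˣ →+ A) (I : Ideal (𝓞 E)) : A :=
  if h : Nat.Coprime (Ideal.absNorm I) m then
    ℓ (Additive.ofMul (ZMod.unitOfCoprime _ h))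
  else 0

lemma normChar_of_coprime (ℓ : Additive (ZMod m)ˣ →+ A) {I : Ideal (𝓞 E)}
    (h : Nat.Coprime (Ideal.absNorm I) m) :
    normChar ℓ I = ℓ (Additive.ofMul (ZMod.unitOfCoprime _ h)) := dif_pos h

lemma normChar_mul (ℓ : Additive (ZMod m)ˣ →+ A) {I J : Ideal (𝓞 E)}
    (hI : Nat.Coprime (Ideal.absNorm I) m) (hJ : Nat.Coprime (Ideal.absNorm J) m) :
    normChar ℓ (I * J) = normChar ℓ I + normChar ℓ J := by
  have h : Nat.Coprime (Ideal.absNorm (I * J)) m := by rw [map_mul]; exact hI.mul_left hJ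
  rw [normChar_of_coprime ℓ h, normChar_of_coprime ℓ hI, normChar_of_coprime ℓ hJ, ← map_add,
    ← ofMul_mul]
  congr 2
  refine Units.ext ?_
  simp [ZMod.coe_unitOfCoprime, map_mul]

/-- A norm character killing principal ideals descends to the class group. -/
theorem exists_classHom_normChar (hm : m.Prime) (ℓ : Additive (ZMod m)ˣ →+ A)
    (hℓ : ∀ x : 𝓞 E, Nat.Coprime (Ideal.absNorm (Ideal.span {x})) m →
      normChar ℓ (Ideal.span {x}) = 0) :
    ∃ Φ : ClassGroup (𝓞 E) →* Multiplicative A, ∀ I : (Ideal (𝓞 E))⁰,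
      Nat.Coprime (Ideal.absNorm (I : Ideal (𝓞 E))) m →
        Φ (ClassGroup.mk0 I) = Multiplicative.ofAdd (normChar ℓ (I : Ideal (𝓞 E))) := by
  choose rep hrep hcop using exists_mk0_eq_coprime (E := E) hm
  have key : ∀ I J : (Ideal (𝓞 E))⁰, ClassGroup.mk0 I = ClassGroup.mk0 J →
      Nat.Coprime (Ideal.absNorm (I : Ideal (𝓞 E))) m →
      Nat.Coprime (Ideal.absNorm (J : Ideal (𝓞 E))) m →
      normChar ℓ (I : Ideal (𝓞 E)) = normChar ℓ (J : Ideal (𝓞 E)) := by
    intro I J hIJ hI hJ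
    set T := rep (ClassGroup.mk0 I)⁻¹
    have hT := hcop (ClassGroup.mk0 I)⁻¹
    have hz : ∀ U : (Ideal (𝓞 E))⁰, ClassGroup.mk0 U = ClassGroup.mk0 I →
        Nat.Coprime (Ideal.absNorm (U : Ideal (𝓞 E))) m →
        normChar ℓ (U : Ideal (𝓞 E)) + normChar ℓ (T : Ideal (𝓞 E)) = 0 := by
      intro U hU hUc
      have h1 : ClassGroup.mk0 (U * T) = 1 := by rw [map_mul, hU, hrep, mul_inv_cancel]
      have h2 : Submodule.IsPrincipal ((U : Ideal (𝓞 E)) * (T : Ideal (𝓞 E))) :=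
        (ClassGroup.mk0_eq_one_iff (mul_mem U.2 T.2)).mp h1
      obtain ⟨x, hx⟩ := h2
      have hc : Nat.Coprime (Ideal.absNorm (Ideal.span {x})) m := by
        rw [show Ideal.span {x} = (U : Ideal (𝓞 E)) * (T : Ideal (𝓞 E)) from hx.symm, map_mul]
        exact hUc.mul_left hT
      rw [← normChar_mul ℓ hUc hT, hx]
      exact hℓ x hc
    exact add_right_cancel ((hz I rfl hI).trans (hz J hIJ.symm hJ).symm)
  refine ⟨MonoidHom.mk' (fun C => Multiplicative.ofAdd (normChar ℓ (rep C : Ideal (𝓞 E))))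
    (fun C D => ?_), fun I hI => ?_⟩
  · rw [← ofAdd_add, ← normChar_mul ℓ (hcop C) (hcop D)]
    refine congrArg Multiplicative.ofAdd (key (rep (C * D)) (rep C * rep D) ?_ (hcop _) ?_)
    · rw [map_mul, hrep, hrep, hrep]
    · rw [Submonoid.coe_mul, map_mul]; exact (hcop C).mul_left (hcop D)
  · exact congrArg Multiplicative.ofAdd (key _ _ (hrep _) (hcop _) hI)

end Fermat.Agent.S14.Cross
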