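import Mathlib.RingTheory.Norm.Transitivity
import Fermat.Agent.S14.Cross.Fields
import Fermat.Agent.S14.Cross.ModChar

/-!
# Over the crossed field the Artin character is a norm character

For `a ≠ 0` let `E` be the fixed field of `f + a * θ i`. Norms of integers of `E` prime to `m i` are
`p`-th powers modulo `m i`, so `I ↦ ℓ i (N I mod m i)` is a character of `Cl E`.
-/

set_option autoImplicit false

noncomputable section

namespace Fermat.Agent.S14.Cross

open IntermediateField NumberField IsDedekindDomain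
open scoped NumberField nonZeroDivisors Pointwise

lemma natCard_int_quotient (m : ℕ) : Nat.card (ℤ ⧸ Ideal.span {(m : ℤ)}) = m := by
  rw [Nat.card_congr (Int.quotientSpanNatEquivZMod m).toEquiv, Nat.card_zmod]

variable {F : Type} [Field F] [NumberField F]

lemma pow_smul_sub_mem {Q : Ideal (𝓞 F)} {τ : Gal(F/ℚ)} (hτ : τ ∈ Q.inertia Gal(F/ℚ)) (k : ℕ)
    (y : 𝓞 F) : τ ^ k • y - y ∈ Q :=
  (pow_mem hτ k : τ ^ k ∈ Q.inertia Gal(F/ℚ)) y

namespace Setting

variable {p : ℕ} [Fact p.Prime] (S : Setting p F)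

lemma θ_pow (i : Fin 2) (σ : Gal(F/ℚ)) (k : ℕ) : S.θ i (σ ^ k) = k * S.θ i σ := by
  induction k with
  | zero => simp [S.θ_one]
  | succ k ih => rw [pow_succ, S.θ_mul, ih]; push_cast; ring

lemma f_pow (σ : Gal(F/ℚ)) (hσ : S.χ σ = 1) (k : ℕ) : S.f (σ ^ k) = k * S.f σ := by
  induction k with
  | zero => simp [S.f_one]
  | succ k ih =>
    rw [pow_succ, S.f_mul _ _ (by rw [map_pow, hσ, one_pow]) hσ, ih]; push_cast; ring

lemma ne_p (i : Fin 2) : S.m i ≠ p := fun h => by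
  have := S.m_mod i
  rw [h, Nat.mod_self] at this
  exact zero_ne_one this

lemma natCast_m (i : Fin 2) : (S.m i : ZMod p) = 1 := by
  rw [← ZMod.natCast_mod, S.m_mod i, Nat.cast_one]

variable {i : Fin 2} {a : ZMod p} (ha : a ≠ 0) {Q : Ideal (𝓞 F)} (hQ : Q.IsMaximal)
  (hmQ : (S.m i : 𝓞 F) ∈ Q)
include ha hQ hmQ

/-- At a prime over `m i`, `KG` is inertia times the line group. -/
lemma exists_inertia_mul_line (σ : Gal(F/ℚ)) (hσ : S.χ σ = 1) :
    ∃ τ ∈ Q.inertia Gal(F/ℚ), ∃ h ∈ S.lineGroup i a, σ = τ * h := by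
  obtain ⟨τ, hτ, hχ, hθ⟩ := S.θ_inertia_at i Q hQ hmQ
  have hf := S.f_inertia Q hQ τ hτ hχ
  set c : ZMod p := (S.f σ + a * S.θ i σ) / (a * S.θ i τ)
  refine ⟨τ ^ c.val, pow_mem hτ _, (τ ^ c.val)⁻¹ * σ, ?_, (mul_inv_cancel_left _ _).symm⟩
  have hχk : S.χ (τ ^ c.val)⁻¹ = 1 := by rw [map_inv, map_pow, hχ, one_pow, inv_one]
  refine S.mem_lineGroup.mpr ⟨by rw [map_mul, hχk, hσ, one_mul], ?_⟩
  have hfinv : S.f (τ ^ c.val)⁻¹ = 0 := by
    have h := S.f_mul (τ ^ c.val) (τ ^ c.val)⁻¹ (by rw [map_pow, hχ, one_pow]) hχk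
    rw [mul_inv_cancel, S.f_one, S.f_pow τ hχ, hf, mul_zero, zero_add] at h
    exact h.symm
  rw [S.f_mul _ _ hχk hσ, S.θ_mul, hfinv, S.θ_inv, S.θ_pow, ZMod.natCast_val, ZMod.cast_id]
  have : c * (a * S.θ i τ) = S.f σ + a * S.θ i σ := div_mul_cancel₀ _ (mul_ne_zero ha hθ)
  linear_combination -this

/-- `KG` acts trivially on the integers of the line field modulo `Q`. -/
lemma smul_sub_mem (σ : Gal(F/ℚ)) (hσ : S.χ σ = 1) (x : 𝓞 (fixedField (S.lineGroup i a))) :
    σ • algebraMap (𝓞 (fixedField (S.lineGroup i a))) (𝓞 F) x -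
      algebraMap (𝓞 (fixedField (S.lineGroup i a))) (𝓞 F) x ∈ Q := by
  obtain ⟨τ, hτ, h, hh, rfl⟩ := S.exists_inertia_mul_line ha hQ hmQ σ hσ
  have hfix : h • algebraMap (𝓞 (fixedField (S.lineGroup i a))) (𝓞 F) x =
      algebraMap (𝓞 (fixedField (S.lineGroup i a))) (𝓞 F) x :=
    RingOfIntegers.ext ((mem_fixedField_iff _ _).mp
      ((x : fixedField (S.lineGroup i a))).2 h hh)
  rw [mul_smul, hfix]
  exact hτ _

variable [IsGalois ℚ F]

/-- The residue degree at `m i` of the line field is one. -/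
lemma pow_m_sub_mem (x : 𝓞 (fixedField (S.lineGroup i a))) :
    algebraMap (𝓞 (fixedField (S.lineGroup i a))) (𝓞 F) x ^ S.m i -
      algebraMap (𝓞 (fixedField (S.lineGroup i a))) (𝓞 F) x ∈ Q := by
  have hQ0 : Q ≠ ⊥ := by
    rintro rfl
    exact (S.m_prime i).ne_zero (by simpa using (Ideal.mem_bot.mp hmQ))
  have : Finite (𝓞 F ⧸ Q) := finite_quotient_asIdeal ⟨Q, hQ.isPrime, hQ0⟩
  have hσ : IsArithFrobAt ℤ (arithFrobAt ℤ Gal(F/ℚ) Q) Q := IsArithFrobAt.arithFrobAt ℤ _ _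
  set σ := arithFrobAt ℤ Gal(F/ℚ) Q
  have hχ : S.χ σ = 1 := Units.ext (by
    rw [S.χ_frob Q (S.m i) σ hQ (S.m_prime i) hmQ (S.ne_p i) hσ, S.natCast_m, Units.val_one])
  have hcard : Nat.card (ℤ ⧸ Q.under ℤ) = S.m i := by
    have hmax : (Ideal.span {(S.m i : ℤ)}).IsMaximal :=
      PrincipalIdealRing.isMaximal_of_irreducible (Nat.prime_iff_prime_int.mp (S.m_prime i)).irreducible
    rw [← hmax.eq_of_le (Ideal.IsPrime.ne_top (Ideal.IsPrime.under ℤ Q))
      ((Ideal.span_singleton_le_iff_mem _).mpr (by simpa [Ideal.mem_comap, Ideal.under_def] using hmQ)),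
      natCard_int_quotient]
  have h1 := hσ (algebraMap (𝓞 (fixedField (S.lineGroup i a))) (𝓞 F) x)
  rw [hcard] at h1
  have h2 := S.smul_sub_mem ha hQ hmQ σ hχ x
  have h3 := Q.sub_mem h2 h1
  simp only [MulSemiringAction.toAlgHom_apply, sub_sub_sub_cancel_left] at h3
  exact h3

omit hQ hmQ

/-- Norms from the line field are `p`-th powers modulo `m i`. -/
lemma norm_pow_eq_one (x : 𝓞 (fixedField (S.lineGroup i a)))
    (hx : ((Algebra.norm ℤ x : ℤ) : ZMod (S.m i)) ≠ 0) :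
    ((Algebra.norm ℤ x : ℤ) : ZMod (S.m i)) ^ ((S.m i - 1) / p) = 1 := by
  classical
  obtain ⟨Q, hQ, hle⟩ := Ideal.exists_le_maximal (Ideal.span {(S.m i : 𝓞 F)}) (by
    intro h
    have h1 := (Ideal.span_singleton_eq_top.mp h).map (Algebra.norm ℤ)
    rw [show (S.m i : 𝓞 F) = algebraMap ℤ (𝓞 F) (S.m i : ℤ) by simp, Algebra.norm_algebraMap,
      RingOfIntegers.rank, Int.isUnit_iff_natAbs_eq, Int.natAbs_pow, Int.natAbs_natCast] at h1
    exact (S.m_prime i).ne_one ((pow_eq_one_iff_of_nonneg (Nat.zero_le _)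
      Module.finrank_pos.ne').mp h1))
  have hmQ : (S.m i : 𝓞 F) ∈ Q := hle (Ideal.mem_span_singleton_self _)
  have hconj : ∀ g : Gal(F/ℚ), (g • Q).IsMaximal ∧ (S.m i : 𝓞 F) ∈ g • Q := fun g => by
    refine ⟨Ideal.map_isMaximal_of_equiv (MulSemiringAction.toRingEquiv Gal(F/ℚ) (𝓞 F) g), ?_⟩
    rw [Ideal.mem_pointwise_smul_iff_inv_smul_mem]
    have hfix : g⁻¹ • (S.m i : 𝓞 F) = (S.m i : 𝓞 F) :=
      map_natCast (MulSemiringAction.toRingEquiv Gal(F/ℚ) (𝓞 F) g⁻¹) _
    rwa [hfix]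
  let := algLe (S.lineGroup_le i a)
  have := isScalarTower_le (S.lineGroup_le i a)
  have : IsScalarTower ℚ S.K (fixedField (S.lineGroup i a)) := IsScalarTower.of_algebraMap_eq fun _ => rfl
  have : FiniteDimensional S.K (fixedField (S.lineGroup i a)) := FiniteDimensional.right ℚ S.K _
  obtain ⟨hgal, hres⟩ := galois_le (S.lineGroup_le i a) fun g hg σ hσ => S.conj_mem_lineGroup hg hσ
  have := hgal
  have hdeg : Nat.card (fixedField (S.lineGroup i a) ≃ₐ[S.K] fixedField (S.lineGroup i a)) = p := by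
    rw [IsGalois.card_aut_eq_finrank]
    exact Nat.eq_of_mul_eq_mul_right Nat.card_pos
      ((finrank_le_mul (S.lineGroup_le i a)).trans (by rw [mul_comm]; exact (S.card_lineGroup_mul i a).symm))
  set X := algebraMap (𝓞 (fixedField (S.lineGroup i a))) (𝓞 F) x
  set Z := algebraMap (𝓞 S.K) (𝓞 F) (RingOfIntegers.norm S.K x)
  -- the relative norm is a `p`-th power at every prime over `m i`
  have hZ : ∀ R : Ideal (𝓞 F), R.IsMaximal → (S.m i : 𝓞 F) ∈ R → Z - X ^ p ∈ R := by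
    intro R hR hmR
    have hterm : ∀ e : fixedField (S.lineGroup i a) ≃ₐ[S.K] fixedField (S.lineGroup i a),
        algebraMap (𝓞 (fixedField (S.lineGroup i a))) (𝓞 F) (RingOfIntegers.mapRingEquiv (e : _ ≃+* _) x) - X ∈ R := by
      intro e
      obtain ⟨g, hg, hge⟩ := hres e
      have : algebraMap (𝓞 (fixedField (S.lineGroup i a))) (𝓞 F) (RingOfIntegers.mapRingEquiv (e : _ ≃+* _) x) = g • X :=
        RingOfIntegers.ext (hge _)
      rw [this]
      exact S.smul_sub_mem ha hR hmR g hg x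
    have hprod : Z = ∏ e : fixedField (S.lineGroup i a) ≃ₐ[S.K] fixedField (S.lineGroup i a),
        algebraMap (𝓞 (fixedField (S.lineGroup i a))) (𝓞 F) (RingOfIntegers.mapRingEquiv (e : _ ≃+* _) x) := by
      refine RingOfIntegers.ext ?_
      show ((Algebra.norm S.K (x : fixedField (S.lineGroup i a)) : S.K) : F) = _
      have := congrArg (algebraMap (fixedField (S.lineGroup i a)) F)
        (Algebra.norm_eq_prod_automorphisms S.K (x : fixedField (S.lineGroup i a)))
      rw [map_prod, ← IsScalarTower.algebraMap_apply] at this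
      refine this.trans ?_
      show _ = algebraMap (𝓞 F) F _
      rw [map_prod]
      rfl
    have hpw : Ideal.Quotient.mk R X ^ p =
        ∏ _e : fixedField (S.lineGroup i a) ≃ₐ[S.K] fixedField (S.lineGroup i a),
          Ideal.Quotient.mk R X := by
      rw [Finset.prod_const, Finset.card_univ, ← Nat.card_eq_fintype_card, hdeg]
    rw [← Ideal.Quotient.eq, hprod, map_prod, map_pow, hpw]
    exact Finset.prod_congr rfl fun e _ => Ideal.Quotient.eq.mpr (hterm e)
  -- the absolute norm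
  have : Normal ℚ S.K := (IsCyclotomicExtension.isGalois {p} ℚ S.K).to_normal
  have : IsGalois ℚ S.K := IsCyclotomicExtension.isGalois {p} ℚ S.K
  choose gk hgk using AlgEquiv.restrictNormalHom_surjective (F := ℚ) (K₁ := S.K) F
  have hN : ((Algebra.norm ℤ x : ℤ) : 𝓞 F) = ∏ k : S.K ≃ₐ[ℚ] S.K, gk k • Z := by
    refine IsFractionRing.injective (𝓞 F) F ?_
    rw [map_intCast, map_prod]
    have h1 : ((Algebra.norm ℤ x : ℤ) : ℚ) = Algebra.norm ℚ (x : fixedField (S.lineGroup i a)) := Algebra.coe_norm_int x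
    have h2 := Algebra.norm_eq_prod_automorphisms ℚ (Algebra.norm S.K (x : fixedField (S.lineGroup i a)))
    rw [Algebra.norm_norm] at h2
    have h3 := congrArg (algebraMap S.K F) h2
    rw [← h1, map_prod, ← IsScalarTower.algebraMap_apply, map_intCast] at h3
    rw [h3]
    refine Finset.prod_congr rfl fun k _ => ?_
    conv_lhs => rw [← hgk k]
    exact AlgEquiv.restrictNormal_commutes (gk k) S.K _
  -- modulo `Q`
  let := Ideal.Quotient.field Q
  have hk : ∀ k : S.K ≃ₐ[ℚ] S.K, Ideal.Quotient.mk Q (gk k • Z) =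
      Ideal.Quotient.mk Q (gk k • X) ^ p ∧
      Ideal.Quotient.mk Q (gk k • X) ^ S.m i = Ideal.Quotient.mk Q (gk k • X) := by
    intro k
    obtain ⟨hR, hmR⟩ := hconj (gk k)⁻¹
    constructor
    · rw [← map_pow, ← smul_pow', Ideal.Quotient.eq, ← smul_sub,
        ← Ideal.mem_inv_pointwise_smul_iff]
      exact hZ _ hR hmR
    · rw [← map_pow, ← smul_pow', Ideal.Quotient.eq, ← smul_sub,
        ← Ideal.mem_inv_pointwise_smul_iff]
      exact S.pow_m_sub_mem ha hR hmR x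
  have : Fact (S.m i).Prime := ⟨S.m_prime i⟩
  have : CharP (𝓞 F ⧸ Q) (S.m i) := by
    refine (CharP.charP_iff_prime_eq_zero (S.m_prime i)).mpr ?_
    rw [← map_natCast (Ideal.Quotient.mk Q), Ideal.Quotient.eq_zero_iff_mem]
    exact hmQ
  refine (ZMod.castHom (dvd_refl (S.m i)) (𝓞 F ⧸ Q)).injective ?_
  have hx' : ((Algebra.norm ℤ x : ℤ) : 𝓞 F ⧸ Q) ≠ 0 := fun h => hx
    ((ZMod.castHom (dvd_refl (S.m i)) (𝓞 F ⧸ Q)).injective (by rw [map_intCast, map_zero, h]))
  rw [map_pow, map_intCast, map_one]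
  rw [← map_intCast (Ideal.Quotient.mk Q), hN, map_prod] at hx' ⊢
  rw [← Finset.prod_pow]
  refine Finset.prod_eq_one fun k hkm => ?_
  obtain ⟨hk1, hk2⟩ := hk k
  have hne : Ideal.Quotient.mk Q (gk k • X) ≠ 0 := fun h => by
    have := Finset.prod_ne_zero_iff.mp hx' k hkm
    rw [hk1, h, zero_pow (Fact.out : p.Prime).ne_zero] at this
    exact this rfl
  have hdiv : p ∣ S.m i - 1 := (ZMod.natCast_eq_zero_iff _ p).mp (by
    rw [Nat.cast_sub (S.m_prime i).one_le, S.natCast_m, Nat.cast_one, sub_self])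
  rw [hk1, ← pow_mul, Nat.mul_div_cancel' hdiv]
  refine mul_right_cancel₀ hne ?_
  rw [← pow_succ, Nat.sub_add_cancel (S.m_prime i).one_le, hk2, one_mul]

/-- The norm character kills principal ideals. -/
lemma normChar_span_singleton (hp : 2 < p) (x : 𝓞 (fixedField (S.lineGroup i a)))
    (hcop : Nat.Coprime (Ideal.absNorm (Ideal.span {x})) (S.m i)) :
    normChar (S.ℓ i) (Ideal.span {x}) = 0 := by
  have : Fact (S.m i).Prime := ⟨S.m_prime i⟩
  have hpp : p.Prime := Fact.out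
  rw [normChar_of_coprime _ hcop]
  set u := ZMod.unitOfCoprime _ hcop
  have hdiv : p ∣ S.m i - 1 := (ZMod.natCast_eq_zero_iff _ p).mp (by
    rw [Nat.cast_sub (S.m_prime i).one_le, S.natCast_m, Nat.cast_one, sub_self])
  set e := (S.m i - 1) / p
  have hu : (u : ZMod (S.m i)) = (((Algebra.norm ℤ x).natAbs : ℕ) : ZMod (S.m i)) := by
    rw [ZMod.coe_unitOfCoprime, Ideal.absNorm_span_singleton]
  have hN0 : ((Algebra.norm ℤ x : ℤ) : ZMod (S.m i)) ≠ 0 := by
    intro h
    have h' : ((Algebra.norm ℤ x).natAbs : ZMod (S.m i)) = 0 := by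
      rw [ZMod.natCast_eq_zero_iff, ← Int.natCast_dvd]
      exact (ZMod.intCast_zmod_eq_zero_iff_dvd _ _).mp h
    exact u.ne_zero (hu.trans h')
  have he := S.norm_pow_eq_one ha x hN0
  have hmp : p * e = S.m i - 1 := Nat.mul_div_cancel' hdiv
  have heven : Even e := by
    have hne2 : S.m i ≠ 2 := fun h => by
      have := S.m_mod i
      rw [h, Nat.mod_eq_of_lt hp] at this
      omega
    obtain ⟨t, ht⟩ := (S.m_prime i).odd_of_ne_two hne2
    have hev : Even (p * e) := ⟨t, by omega⟩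
    rcases Nat.even_mul.mp hev with h2 | h2
    · have := hpp.even_iff.mp h2
      omega
    · exact h2
  have hue : u ^ e = 1 := by
    refine Units.ext ?_
    rw [Units.val_pow_eq_pow_val, Units.val_one, hu, ← Int.cast_natCast (Algebra.norm ℤ x).natAbs,
      Int.natCast_natAbs]
    rcases abs_choice (Algebra.norm ℤ x) with h | h
    · rw [h]; exact he
    · rw [h, Int.cast_neg, heven.neg_pow]; exact he
  obtain ⟨g, hg⟩ := IsCyclic.exists_generator (α := (ZMod (S.m i))ˣ)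
  obtain ⟨k, hk⟩ := Subgroup.mem_zpowers_iff.mp (hg u)
  have hord : (orderOf g : ℤ) = (S.m i - 1 : ℕ) := by
    rw [orderOf_eq_card_of_forall_mem_zpowers hg, Nat.card_eq_fintype_card, ZMod.card_units]
  rw [← hk, ← zpow_natCast, ← zpow_mul] at hue
  have hdvd := orderOf_dvd_iff_zpow_eq_one.mpr hue
  rw [hord, show (S.m i - 1 : ℕ) = p * e from (Nat.mul_div_cancel' hdiv).symm, Nat.cast_mul] at hdvd
  have he0 : (e : ℤ) ≠ 0 := by
    have hm := (S.m_prime i).two_le
    have : p * e = S.m i - 1 := Nat.mul_div_cancel' hdiv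
    intro h
    rw [Nat.cast_eq_zero] at h
    rw [h] at this
    omega
  obtain ⟨t, ht⟩ := (mul_dvd_mul_iff_right he0).mp hdvd
  rw [← hk, ht, ofMul_zpow, map_zsmul]
  simp

/-- The class character of the line field. -/
theorem exists_lineHom (hp : 2 < p) :
    ∃ Φ : ClassGroup (𝓞 (fixedField (S.lineGroup i a))) →* Multiplicative (ZMod p),
      ∀ Q : HeightOneSpectrum (𝓞 F), IsGood Q → frob Q ∈ S.lineGroup i a →
        Φ (ClassGroup.mk0 (primeIdeal (fixedUnder (S.lineGroup i a) Q))) =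
          Multiplicative.ofAdd (S.θ i (frob Q)) := by
  obtain ⟨Φ, hΦ⟩ := exists_classHom_normChar (S.m_prime i) (S.ℓ i) (S.normChar_span_singleton ha hp)
  refine ⟨Φ, fun Q hgood hfrob => ?_⟩
  have hnorm := absNorm_fixedUnder hgood hfrob
  have hQ : Q.asIdeal.IsMaximal := Q.isMaximal
  have hne : residueChar Q ≠ S.m i := by
    intro h
    obtain ⟨σ, hσ, -, hθ⟩ := S.θ_inertia_at i Q.asIdeal hQ (h ▸ residueChar_mem Q)
    rw [show Q.asIdeal.inertia Gal(F/ℚ) = ⊥ from hgood, Subgroup.mem_bot] at hσ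
    exact hθ (hσ ▸ S.θ_one i)
  have hcop : Nat.Coprime (residueChar Q) (S.m i) :=
    (Nat.coprime_primes (residueChar_prime Q) (S.m_prime i)).mpr hne
  have hc : Nat.Coprime (Ideal.absNorm (primeIdeal (fixedUnder (S.lineGroup i a) Q) :
      Ideal (𝓞 (fixedField (S.lineGroup i a)))))
      (S.m i) := by
    show Nat.Coprime (Ideal.absNorm (fixedUnder (S.lineGroup i a) Q).asIdeal) _
    rwa [hnorm]
  rw [hΦ _ hc, normChar_of_coprime _ hc,
    S.θ_frob i Q.asIdeal (residueChar Q) (frob Q) hQ (residueChar_prime Q) (residueChar_mem Q)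
      (isArithFrobAt_frob Q) hcop]
  congr 3
  refine Units.ext ?_
  rw [ZMod.coe_unitOfCoprime, ZMod.coe_unitOfCoprime]
  exact congrArg (fun n : ℕ => (n : ZMod (S.m i))) hnorm

end Setting

end Fermat.Agent.S14.Cross
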