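import Fermat.Agent.S14.Herbrand
import Fermat.Agent.S14.Cross.Mass
import Fermat.Agent.S14.Cross.LineChar

/-!
# No nonsplit admissible extension at a finite level

The character `ψ` supplied by the genus inequality is proportional to `f` on Frobenius elements
with `θ 0 ≠ 0`, hence it transforms by `ω⁻¹`, and Stickelberger's relation kills it.
-/

set_option autoImplicit false

noncomputable section

namespace Fermat.Agent.S14.Cross

open IntermediateField NumberField IsDedekindDomain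
open scoped NumberField nonZeroDivisors Pointwise

variable {F : Type} [Field F] [NumberField F] [IsGalois ℚ F] {p : ℕ} [Fact p.Prime]

namespace Setting

variable (S : Setting p F) (ψ : ClassGroup (𝓞 S.K) →* Multiplicative (ZMod p))

/-- `ψ` at the prime of `K` below `Q`, additively. -/
def psiAt (Q : HeightOneSpectrum (𝓞 F)) : ZMod p :=
  Multiplicative.toAdd (ψ (ClassGroup.mk0 (primeIdeal (S.belowK Q))))

variable (hψ : ∀ Q : HeightOneSpectrum (𝓞 F), IsGood Q → frob Q ∈ S.fGroup →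
  ψ (ClassGroup.mk0 (primeIdeal (S.belowK Q))) = 1)
include hψ

/-- On each line, `ψ` is a multiple of `f`. -/
lemma exists_line_coeff (hp : 2 < p) (i : Fin 2) {a : ZMod p} (ha : a ≠ 0) :
    ∃ c : ZMod p, ∀ Q : HeightOneSpectrum (𝓞 F), IsGood Q → frob Q ∈ S.lineGroup i a →
      S.psiAt ψ Q = c * S.f (frob Q) := by
  have hpp : p.Prime := Fact.out
  let := algLe (S.lineGroup_le i a)
  have := isScalarTower_le (S.lineGroup_le i a)
  obtain ⟨Φ, hΦ⟩ := S.exists_lineHom (i := i) ha hp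
  let χ₁ : ClassGroup (𝓞 (fixedField (S.lineGroup i a))) →* Multiplicative (ZMod p) := ψ.comp (Genus.normClass S.K (fixedField (S.lineGroup i a)))
  let Ψ : ClassGroup (𝓞 (fixedField (S.lineGroup i a))) →* Multiplicative (ZMod p) × Multiplicative (ZMod p) := χ₁.prod Φ
  have hval : ∀ Q, IsGood Q → frob Q ∈ S.lineGroup i a →
      Ψ (ClassGroup.mk0 (primeIdeal (fixedUnder (S.lineGroup i a) Q))) =
        (Multiplicative.ofAdd (S.psiAt ψ Q), Multiplicative.ofAdd (S.θ i (frob Q))) := by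
    intro Q hQ hf
    refine Prod.ext ?_ (hΦ Q hQ hf)
    show ψ (Genus.normClass S.K (fixedField (S.lineGroup i a)) _) = _
    rw [Genus.normClass_mk0, psiAt, ofAdd_toAdd]
    congr 2
    refine Subtype.ext ?_
    have e1 := absNorm_fixedUnder hQ (S.lineGroup_le i a hf)
    have e2 := absNorm_fixedUnder hQ hf
    exact relNorm_under_eq (M := S.K) (M' := (fixedField (S.lineGroup i a))) Q
      (show Nat.Prime (Ideal.absNorm (fixedUnder S.KG Q).asIdeal) by
        rw [e1]; exact residueChar_prime Q)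
      (show Ideal.absNorm (fixedUnder (S.lineGroup i a) Q).asIdeal =
        Ideal.absNorm (fixedUnder S.KG Q).asIdeal by rw [e1, e2])
  -- the image has at most `p` elements
  set d := Nat.card ↑(S.lineGroup i a ⊓ S.fGroup)
  have hline : Nat.card (S.lineGroup i a) = d * p :=
    Nat.eq_of_mul_eq_mul_right hpp.pos
      ((S.card_lineGroup_mul i a).trans (S.card_line_inf_f_mul i ha).symm)
  have hcard : Nat.card Ψ.range ≤ p := by
    obtain ⟨C₁, h₁⟩ := exists_le_frobMass (S.lineGroup i a ⊓ S.fGroup)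
      {Q | frob Q ∈ S.lineGroup i a ∧
        Ψ (ClassGroup.mk0 (primeIdeal (fixedUnder (S.lineGroup i a) Q))) = 1} fun Q hQ hf => by
      refine ⟨hf.1, ?_⟩
      rw [hval Q hQ hf.1]
      obtain ⟨-, hl⟩ := S.mem_lineGroup.mp hf.1
      obtain ⟨-, hf0⟩ := S.mem_fGroup.mp hf.2
      rw [hf0, zero_add, mul_eq_zero] at hl
      rw [hl.resolve_left ha, show S.psiAt ψ Q = 0 by rw [psiAt, hψ Q hQ hf.2, toAdd_one], ofAdd_zero]
      rfl
    obtain ⟨C₂, h₂⟩ := exists_frobMass_ker_le (S.lineGroup i a) Ψ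
    have key := coeff_le_of_log (a := (Nat.card Ψ.range : ℝ) * d) (b := (d * p : ℕ))
      (C := (Nat.card Ψ.range : ℝ) * C₁ + C₂) fun s hs1 hs2 => by
        have e1 := mul_le_mul_of_nonneg_left (h₁ s hs1 hs2)
          (Nat.cast_nonneg (Nat.card Ψ.range) : (0 : ℝ) ≤ _)
        have e2 := h₂ s hs1 hs2
        rw [hline] at e2
        linarith
    have hd : 0 < d := Nat.card_pos
    have key' : Nat.card Ψ.range * d ≤ p * d := by
      rw [mul_comm p d]; exact_mod_cast key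
    exact Nat.le_of_mul_le_mul_right key' hd
  -- it contains an element with nonzero second coordinate
  obtain ⟨Q₀, hQ₀, hin, hout⟩ := exists_frob_mem_not_mem
    (H := S.lineGroup i a) (H' := S.lineGroup i a ⊓ S.fGroup) (by
      rw [hline]
      exact lt_mul_of_one_lt_right Nat.card_pos hpp.one_lt)
  have hv₀ : S.θ i (frob Q₀) ≠ 0 := fun h => hout ⟨hin, S.mem_fGroup.mpr
    ⟨hin.1, by simpa [h] using (S.mem_lineGroup.mp hin).2⟩⟩
  set u₀ := S.psiAt ψ Q₀
  set v₀ := S.θ i (frob Q₀)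
  let e : ZMod p → Ψ.range := fun k =>
    ⟨(Multiplicative.ofAdd u₀, Multiplicative.ofAdd v₀) ^ k.val,
      Ψ.range.pow_mem (MonoidHom.mem_range.mpr ⟨_, hval Q₀ hQ₀ hin⟩) _⟩
  have he : Function.Injective e := fun k l h => by
    have h' := congrArg (fun r : Ψ.range => Multiplicative.toAdd (r.1.2)) h
    simp only [e, Prod.pow_snd, toAdd_pow, toAdd_ofAdd, nsmul_eq_mul, ZMod.natCast_val,
      ZMod.cast_id] at h'
    exact mul_right_cancel₀ hv₀ h'
  have hsurj : Function.Surjective e :=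
    (he.bijective_of_nat_card_le (by rw [Nat.card_zmod]; exact hcard)).2
  refine ⟨-(u₀ / v₀ / a), fun Q hQ hf => ?_⟩
  obtain ⟨k, hk⟩ := hsurj ⟨_, ClassGroup.mk0 (primeIdeal (fixedUnder (S.lineGroup i a) Q)),
    hval Q hQ hf⟩
  have h1 := congrArg (fun r : Ψ.range => Multiplicative.toAdd (r.1.1)) hk
  have h2 := congrArg (fun r : Ψ.range => Multiplicative.toAdd (r.1.2)) hk
  simp only [e, Prod.pow_fst, Prod.pow_snd, toAdd_pow, toAdd_ofAdd, nsmul_eq_mul,
    ZMod.natCast_val, ZMod.cast_id] at h1 h2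
  have hl : S.f (frob Q) = -(a * S.θ i (frob Q)) :=
    eq_neg_of_add_eq_zero_left (S.mem_lineGroup.mp hf).2
  rw [← h1, hl, ← h2]
  field_simp

/-- `ψ` is proportional to `f` where `θ 0` does not vanish. -/
lemma exists_coeff (hp : 2 < p) : ∃ c : ZMod p, ∀ Q : HeightOneSpectrum (𝓞 F), IsGood Q →
    S.χ (frob Q) = 1 → S.θ 0 (frob Q) ≠ 0 → S.psiAt ψ Q = c * S.f (frob Q) := by
  obtain ⟨c₁, h₁⟩ := S.exists_line_coeff ψ hψ hp 1 (one_ne_zero (α := ZMod p))
  refine ⟨c₁, fun Q hQ hχ hθ => ?_⟩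
  by_cases hf : S.f (frob Q) = 0
  · rw [hf, mul_zero, psiAt, hψ Q hQ (S.mem_fGroup.mpr ⟨hχ, hf⟩), toAdd_one]
  set a : ZMod p := -(S.f (frob Q) / S.θ 0 (frob Q))
  have ha : a ≠ 0 := neg_ne_zero.mpr (div_ne_zero hf hθ)
  have hmem : frob Q ∈ S.lineGroup 0 a := S.mem_lineGroup.mpr ⟨hχ, by
    rw [neg_mul, div_mul_cancel₀ _ hθ, add_neg_cancel]⟩
  obtain ⟨c₀, h₀⟩ := S.exists_line_coeff ψ hψ hp 0 ha
  have hpp : p.Prime := Fact.out
  obtain ⟨Q', hQ', hin, hout⟩ := exists_frob_mem_not_mem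
    (H := S.lineGroup 0 a ⊓ S.lineGroup 1 1) (H' := S.lineGroup 0 a ⊓ S.lineGroup 1 1 ⊓ S.fGroup)
    (by
      obtain ⟨h1, h2⟩ := S.card_pair_mul a 1 ha
      have h3 := (h2 one_ne_zero).trans h1.symm
      have hd : 0 < Nat.card ↑(S.lineGroup 0 a ⊓ S.lineGroup 1 1 ⊓ S.fGroup) := Nat.card_pos
      have h4 : Nat.card ↑(S.lineGroup 0 a ⊓ S.lineGroup 1 1) =
          Nat.card ↑(S.lineGroup 0 a ⊓ S.lineGroup 1 1 ⊓ S.fGroup) * p := by
        refine Nat.eq_of_mul_eq_mul_right (Nat.mul_pos hpp.pos hpp.pos) ?_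
        rw [← mul_assoc, ← h3]; ring
      rw [h4]
      exact lt_mul_of_one_lt_right hd hpp.one_lt)
  have hf' : S.f (frob Q') ≠ 0 := fun h => hout ⟨hin, S.mem_fGroup.mpr ⟨hin.1.1, h⟩⟩
  rw [h₀ Q hQ hmem, mul_right_cancel₀ hf' ((h₀ Q' hQ' hin.1).symm.trans (h₁ Q' hQ' hin.2))]

open JacobiSumStickelberger in
/-- `ψ` transforms by `ω⁻¹`. -/
lemma psi_equivariant (hp : 2 < p) (d : (ZMod p)ˣ) (C : ClassGroup (𝓞 S.K)) :
    ψ (ClassGroup.mulEquiv (clRingAction p S.K d) C) =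
      ψ C ^ ((d⁻¹ : (ZMod p)ˣ) : ZMod p).val := by
  obtain ⟨g, rfl⟩ := S.χ_surj d
  obtain ⟨c, hc⟩ := S.exists_coeff ψ hψ hp
  have hpp : p.Prime := Fact.out
  set w : ℕ := (((S.χ g)⁻¹ : (ZMod p)ˣ) : ZMod p).val
  let D : ClassGroup (𝓞 S.K) →* Multiplicative (ZMod p) :=
    ψ.comp (ClassGroup.mulEquiv (clRingAction p S.K (S.χ g))).toMonoidHom /
      (powMonoidHom w).comp ψ
  have hD : ∀ C, D C = ψ (ClassGroup.mulEquiv (clRingAction p S.K (S.χ g)) C) / ψ C ^ w :=
    fun C => rfl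
  suffices D = 1 by
    have h := DFunLike.congr_fun this C
    rw [hD, MonoidHom.one_apply, div_eq_one] at h
    exact h
  by_contra hne
  have hrange : Nat.card D.range = p := by
    have hM : Nat.card (Multiplicative (ZMod p)) = p := Nat.card_zmod p
    rcases (Nat.dvd_prime hpp).mp (hM ▸ Subgroup.card_subgroup_dvd_card D.range) with h | h
    · exact absurd (MonoidHom.range_eq_bot_iff.mp (Subgroup.card_eq_one.mp h)) hne
    · exact h
  have hzero : ∀ Q, IsGood Q → frob Q ∈ S.KG → S.θ 0 (frob Q) ≠ 0 →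
      D (ClassGroup.mk0 (primeIdeal (S.belowK Q))) = 1 := by
    intro Q hQ hχ hθ
    obtain ⟨hQg, hfrob⟩ := frob_conjPrime g hQ
    have hχ' : S.χ (frob (conjPrime g Q)) = 1 := by
      rw [hfrob, map_mul, map_mul, map_inv, S.mem_KG.mp hχ, mul_one, mul_inv_cancel]
    have e1 := hc (conjPrime g Q) hQg hχ' (by rwa [hfrob, S.θ_conj])
    have e2 := hc Q hQ hχ hθ
    rw [hD, div_eq_one, ← S.mk0_belowK_conj g Q]
    apply Multiplicative.toAdd.injective
    rw [toAdd_pow, nsmul_eq_mul, ZMod.natCast_val, ZMod.cast_id]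
    change S.psiAt ψ (conjPrime g Q) = _ * S.psiAt ψ Q
    rw [e1, e2, hfrob, S.f_conj g _ hχ]
    ring
  set T := {Q : HeightOneSpectrum (𝓞 F) |
    frob Q ∈ S.KG ∧ D (ClassGroup.mk0 (primeIdeal (S.belowK Q))) = 1}
  obtain ⟨C₁, h₁⟩ := exists_le_frobMass S.KG (T ∪ {Q | frob Q ∈ S.θGroup 0}) fun Q hQ hk => by
    by_cases hθ : S.θ 0 (frob Q) = 0
    · exact Or.inr (S.mem_θGroup.mpr ⟨hk, hθ⟩)
    · exact Or.inl ⟨hk, hzero Q hQ hk hθ⟩
  obtain ⟨C₂, h₂⟩ := exists_frobMass_ker_le S.KG D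
  obtain ⟨C₃, h₃⟩ := exists_frobMass_group (S.θGroup 0)
  have hn := S.card_θGroup_mul
  have key := coeff_le_of_log (a := (p : ℝ) * Nat.card S.KG)
    (b := (Nat.card S.KG : ℝ) + p * Nat.card (S.θGroup 0)) (C := p * C₁ + C₂ + p * C₃)
    fun s hs1 hs2 => by
      have e1 := h₁ s hs1 hs2
      have e1' := frobMass_union_le (S := T) (T := {Q | frob Q ∈ S.θGroup 0}) hs1
      have e2 := h₂ s hs1 hs2
      rw [hrange] at e2
      have e3 := (abs_le.mp (h₃ s hs1 hs2)).2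
      have hp0 : (0 : ℝ) ≤ p := Nat.cast_nonneg _
      nlinarith [mul_le_mul_of_nonneg_left (e1.trans (add_le_add e1' le_rfl)) hp0,
        mul_le_mul_of_nonneg_left e3 hp0]
  have hn' : (Nat.card (S.θGroup 0) : ℝ) * p = Nat.card S.KG := by exact_mod_cast hn
  have hpos : (0 : ℝ) < Nat.card S.KG := by exact_mod_cast Nat.card_pos
  have hp3 : (3 : ℝ) ≤ p := by exact_mod_cast hp
  nlinarith [mul_le_mul_of_nonneg_right hp3 hpos.le]

end Setting

/-- No `Setting` exists. -/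
theorem false_of_setting (S : Setting p F) (hp : 2 < p) : False := by
  obtain ⟨ψ, hne, hψ⟩ := S.exists_psi hp
  refine hne (hom_classGroup_omega_inv_eq_one S.K (p := p) (by omega) (fun x => ?_) ψ
    (S.psi_equivariant ψ hψ hp))
  apply Multiplicative.toAdd.injective
  rw [toAdd_pow, nsmul_eq_mul, ZMod.natCast_self, zero_mul, toAdd_one]

end Fermat.Agent.S14.Cross
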